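import Mathlib
import Fermat.Agent.MW17.Spec
import Fermat.Agent.HT.Glob.Sum
import Fermat.Agent.V.Coord.Point

/-!
# Program MW (S17), heights half (A): the GLOBAL quantities on the curve and the global interface

Owner: helper22 (assigned by the architect helper16, board 3312 (2),(3)).  Namespace
`Fermat.Agent.MW17`, prefix `mw17g` / `Mw17`.  `K := HtgQb = AlgebraicClosure ℚ`; everything is built
on helper23's `HT/Glob/Sum.lean` (`htgHt`, `htgSum`, `htg_mono'`, `htgC`) and helper16's local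
interface `MW17/Spec.lean` (`mw17Phi`, `mw17Dl`, `Mw17P0Loc`, …).

## Definitions
* `mw17gH0 T n t R`   : `hP0(R) = htgHt (φR) / n` (`R` on the completed curve; `= 0` at `P0 = none`);
* `mw17gB T n t P R`  : `β(P,R) = htgHt (φP ∧ φR) − htgHt (φP) − htgHt (φR)`;
* `mw17gBt T n R`     : `βtan(R) = htgHt (φR ∧ φ'R) − 2 htgHt (φR)`.

## The linear local-to-global lemma for three tuples
* `mw17g_lin3_le`, `mw17g_lin3_abs_le` : a local inequality
  `c₁ log ‖y₁‖_w + c₂ log ‖y₂‖_w + c₃ log ‖y₃‖_w ≤ log (C.val w)` for all admissible `w` gives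
  `c₁ htgHt y₁ + c₂ htgHt y₂ + c₃ htgHt y₃ ≤ htgC C`.

## Lemmas
* `mw17g_ht_single`, `mw17gH0_none`, `mw17gH0_nonneg`, `mw17gH0_some`;
* `mw17gB_symm`;
* `mw17gB_le` : `φP ∧ φR ≠ 0 → β(P,R) ≤ htgC ⟨∅, 1, 0⟩` (`= log 2`, `mw17g_htgC_two`),
  `mw17gB_le_log_two`;
* `mw17g_psi_injective`, `mw17g_wedge_ne_zero` (`P ≠ R → φP ∧ φR ≠ 0` when `δ.N ≤ n`, `δ.d j ≤ n`),
  `mw17g_wedge_none_ne_zero`, `mw17g_top_ne_zero`, `mw17gB_le_of_ne`, `mw17gB_none_le`,
  `mw17g_log_dl` (`log δ_w(P,R) = log ‖φP ∧ φR‖ − log ‖φP‖ − log ‖φR‖`);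
* `mw17g_p0` (GS-P0) : `Mw17P0Loc T n t → ∃ C, ∀ R, |β(P0,R) + hP0(R)| ≤ C`.

## Global interface statements (`Prop`-valued definitions, verbatim from the architect's 3312 (3))
* `Mw17StarOffGlob`, `Mw17MGlob`, `Mw17StarTanGlob`, `Mw17Eps`.
-/

set_option autoImplicit false

noncomputable section

namespace Fermat.Agent.MW17

open Fermat.Agent.V Fermat.Agent.HT

/-! ### the linear local-to-global lemma for three tuples -/

section Lin3

variable {ι₁ ι₂ ι₃ : Type*} [Finite ι₁] [Finite ι₂] [Finite ι₃]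

/-- **linear local-to-global for three tuples** : a local inequality between the logarithms of the
sup norms of three nonzero tuples, valid for ALL admissible absolute values of `Q̄` with a local
constant `C`, gives the same inequality between the heights with the global constant `htgC C`. -/
theorem mw17g_lin3_le (y₁ : ι₁ → HtgQb) (y₂ : ι₂ → HtgQb) (y₃ : ι₃ → HtgQb)
    (h₁ : y₁ ≠ 0) (h₂ : y₂ ≠ 0) (h₃ : y₃ ≠ 0) (c₁ c₂ c₃ : ℝ) (C : HtConst HtgQb)
    (h : ∀ w : HtAbs HtgQb, c₁ * Real.log (htlSup w.1 y₁) + c₂ * Real.log (htlSup w.1 y₂) +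
      c₃ * Real.log (htlSup w.1 y₃) ≤ Real.log (C.val w.1)) :
    c₁ * htgHt y₁ + c₂ * htgHt y₂ + c₃ * htgHt y₃ ≤ htgC C := by
  let a : ι₁ ⊕ (ι₂ ⊕ ι₃) → HtgQb := Sum.elim y₁ (Sum.elim y₂ y₃)
  let f₁ : ι₁ → ι₁ ⊕ (ι₂ ⊕ ι₃) := Sum.inl
  let f₂ : ι₂ → ι₁ ⊕ (ι₂ ⊕ ι₃) := fun j => Sum.inr (Sum.inl j)
  let f₃ : ι₃ → ι₁ ⊕ (ι₂ ⊕ ι₃) := fun j => Sum.inr (Sum.inr j)
  have e₁ : a ∘ f₁ = y₁ := rfl
  have e₂ : a ∘ f₂ = y₂ := rfl
  have e₃ : a ∘ f₃ = y₃ := rfl
  have hF₁ : HtgFin (fun t => Real.log (⨆ j, t (f₁ j))) a := htgFin_log_sup a f₁ (by rwa [e₁])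
  have hF₂ : HtgFin (fun t => Real.log (⨆ j, t (f₂ j))) a := htgFin_log_sup a f₂ (by rwa [e₂])
  have hF₃ : HtgFin (fun t => Real.log (⨆ j, t (f₃ j))) a := htgFin_log_sup a f₃ (by rwa [e₃])
  have hS₁ : htgSum (fun t => Real.log (⨆ j, t (f₁ j))) a = htgHt y₁ := htgSum_log_sup a f₁
  have hS₂ : htgSum (fun t => Real.log (⨆ j, t (f₂ j))) a = htgHt y₂ := htgSum_log_sup a f₂
  have hS₃ : htgSum (fun t => Real.log (⨆ j, t (f₃ j))) a = htgHt y₃ := htgSum_log_sup a f₃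
  have hG₁ := hF₁.const_mul c₁
  have hG₂ := hF₂.const_mul c₂
  have hG₃ := hF₃.const_mul c₃
  have hG₁₂ := hG₁.add hG₂
  have hG := hG₁₂.add hG₃
  have h0 : HtgFin (fun _ : ι₁ ⊕ (ι₂ ⊕ ι₃) → ℝ => (0 : ℝ)) a := htgFin_of_indicator _ a rfl
  have key := htg_mono' C hG h0 fun w => by
    have := h w
    simpa [htlSup, a, f₁, f₂, f₃] using this
  rw [htgSum_zero, zero_add, htgSum_add hG₁₂ hG₃, htgSum_add hG₁ hG₂, htgSum_const_mul,
    htgSum_const_mul, htgSum_const_mul, hS₁, hS₂, hS₃] at key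
  exact key

/-- two-sided version of `mw17g_lin3_le`. -/
theorem mw17g_lin3_abs_le (y₁ : ι₁ → HtgQb) (y₂ : ι₂ → HtgQb) (y₃ : ι₃ → HtgQb)
    (h₁ : y₁ ≠ 0) (h₂ : y₂ ≠ 0) (h₃ : y₃ ≠ 0) (c₁ c₂ c₃ : ℝ) (C : HtConst HtgQb)
    (h : ∀ w : HtAbs HtgQb, |c₁ * Real.log (htlSup w.1 y₁) + c₂ * Real.log (htlSup w.1 y₂) +
      c₃ * Real.log (htlSup w.1 y₃)| ≤ Real.log (C.val w.1)) :
    |c₁ * htgHt y₁ + c₂ * htgHt y₂ + c₃ * htgHt y₃| ≤ htgC C := by
  have hA := mw17g_lin3_le y₁ y₂ y₃ h₁ h₂ h₃ c₁ c₂ c₃ C fun w => (abs_le.mp (h w)).2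
  have hB := mw17g_lin3_le y₁ y₂ y₃ h₁ h₂ h₃ (-c₁) (-c₂) (-c₃) C fun w => by
    have := (abs_le.mp (h w)).1
    linarith
  rw [abs_le]
  constructor <;> linarith

end Lin3

/-! ### heights of the standard vectors, the constant `log 2` -/

/-- the height of a standard basis vector vanishes. -/
theorem mw17g_ht_single {κ : Type*} [Finite κ] [DecidableEq κ] (t : κ) :
    htgHt (Pi.single t (1 : HtgQb)) = 0 := by
  have hne : (Pi.single t (1 : HtgQb) : κ → HtgQb) ≠ 0 := fun h => by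
    have := congrFun h t
    simp at this
  rw [htgHt, ← htgSum_zero (Pi.single t (1 : HtgQb))]
  refine htgSum_congr fun v σ => ?_
  have h01 : ∀ k, σ ((Pi.single t (1 : HtgQb) : κ → HtgQb) k) = 0 ∨
      htgAbs v (σ ((Pi.single t (1 : HtgQb) : κ → HtgQb) k)) = 1 := by
    intro k
    by_cases hk : k = t
    · right
      rw [hk, Pi.single_eq_same, map_one, map_one]
    · left
      rw [Pi.single_eq_of_ne hk, map_zero]
  have hx : (fun k => σ ((Pi.single t (1 : HtgQb) : κ → HtgQb) k)) ≠ 0 := fun h => by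
    have := congrFun h t
    simp at this
  have := htga_iSup_eq_one (W := htgAbs) (v := v)
    (x := fun k => σ ((Pi.single t (1 : HtgQb) : κ → HtgQb) k)) h01 hx
  show Real.log (⨆ k, htgAbs v (σ ((Pi.single t (1 : HtgQb) : κ → HtgQb) k))) = 0
  rw [this, Real.log_one]

/-- the height does not change under `y ↦ -y`. -/
theorem mw17g_ht_neg {κ : Type*} [Finite κ] (y : κ → HtgQb) : htgHt (-y) = htgHt y := by
  have := htgHt_smul y (c := (-1 : HtgQb)) (by norm_num)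
  rwa [neg_one_smul] at this

/-- the value of the local constant `⟨∅, 1, 0⟩` : `2^{[arch]}`. -/
theorem mw17g_val_two (w : AbsoluteValue HtgQb ℝ) :
    (⟨∅, 1, 0⟩ : HtConst HtgQb).val w = htlArch w 2 := by
  have := htl_val_ofNat (K := HtgQb) 1 w
  rw [show (HtConst.ofNat 1 : HtConst HtgQb) = ⟨∅, 1, 0⟩ from rfl] at this
  rw [this]
  norm_num

/-- the global constant attached to `⟨∅, 1, 0⟩` is `log 2`. -/
theorem mw17g_htgC_two : htgC (⟨∅, 1, 0⟩ : HtConst HtgQb) = Real.log 2 := by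
  classical
  have hconj : htgConj (⟨∅, 1, 0⟩ : HtConst HtgQb) = ⟨∅, 1, 0⟩ := by
    simp [htgConj]
  rw [htgC, hconj, htgConst]
  rw [finsum_eq_single _ (none : HtPl)]
  · rw [mw17g_val_two, htlArch_of_not_nonarch htgW_not_nonarch]
  · intro v hv
    cases v with
    | none => exact absurd rfl hv
    | some p => rw [mw17g_val_two, htlArch_of_nonarch (htgW_nonarch p), Real.log_one]

/-! ### the global quantities on the curve -/

section Curve

variable {δ : V27pShape} (T : V27pTable HtgQb δ)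

/-- `hP0(R) = htgHt (φR) / n` : the height relative to the point `P0` (`none = P0 ↦ 0`). -/
def mw17gH0 (n : ℕ) (t : Mw17Idx δ n) (R : Option (Mw17Pt T)) : ℝ :=
  htgHt (mw17Phi T n t R) / n

/-- `β(P,R) = ∑_v log δ_v(P,R)` (orbit-averaged) : the global logarithmic chordal distance;
`P0 = none` is treated uniformly. -/
def mw17gB (n : ℕ) (t : Mw17Idx δ n) (P R : Option (Mw17Pt T)) : ℝ :=
  htgHt (htlWedge (mw17Phi T n t P) (mw17Phi T n t R)) - htgHt (mw17Phi T n t P) -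
    htgHt (mw17Phi T n t R)

/-- `βtan(R) = ∑_v log t_v(R)`, `t_w(R) = ‖φR ∧ φ'R‖_w / ‖φR‖_w²`. -/
def mw17gBt (n : ℕ) (R : Mw17Pt T) : ℝ :=
  htgHt (htlWedge (mw17Psi T n R) (mw17jtPsiD T n R)) - 2 * htgHt (mw17Psi T n R)

theorem mw17g_ht_phi_none (n : ℕ) (t : Mw17Idx δ n) : htgHt (mw17Phi T n t none) = 0 := by
  rw [mw17Phi_none]
  exact mw17g_ht_single t

theorem mw17g_ht_psi_nonneg (n : ℕ) (q : Mw17Pt T) : 0 ≤ htgHt (mw17Psi T n q) :=
  htgHt_nonneg_of_one _ (mw17IdxZero δ n) (mw17Psi_zero T n q)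

theorem mw17g_ht_phi_nonneg (n : ℕ) (t : Mw17Idx δ n) (R : Option (Mw17Pt T)) :
    0 ≤ htgHt (mw17Phi T n t R) := by
  cases R with
  | none => rw [mw17g_ht_phi_none]
  | some q => exact mw17g_ht_psi_nonneg T n q

@[simp] theorem mw17gH0_none (n : ℕ) (t : Mw17Idx δ n) : mw17gH0 T n t none = 0 := by
  rw [mw17gH0, mw17g_ht_phi_none, zero_div]

theorem mw17gH0_some (n : ℕ) (t : Mw17Idx δ n) (q : Mw17Pt T) :
    mw17gH0 T n t (some q) = htgHt (mw17Psi T n q) / n := rfl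

theorem mw17gH0_nonneg (n : ℕ) (t : Mw17Idx δ n) (R : Option (Mw17Pt T)) :
    0 ≤ mw17gH0 T n t R :=
  div_nonneg (mw17g_ht_phi_nonneg T n t R) (Nat.cast_nonneg n)

/-- `htgHt (φR) = n · hP0(R)`. -/
theorem mw17g_ht_eq_mul_H0 (n : ℕ) (hn : n ≠ 0) (t : Mw17Idx δ n) (R : Option (Mw17Pt T)) :
    htgHt (mw17Phi T n t R) = n * mw17gH0 T n t R := by
  have : (n : ℝ) ≠ 0 := Nat.cast_ne_zero.mpr hn
  rw [mw17gH0]
  field_simp

theorem mw17gB_some_some (n : ℕ) (t : Mw17Idx δ n) (P R : Mw17Pt T) :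
    mw17gB T n t (some P) (some R) =
      htgHt (htlWedge (mw17Psi T n P) (mw17Psi T n R)) - htgHt (mw17Psi T n P) -
        htgHt (mw17Psi T n R) := rfl

theorem mw17gB_none_some (n : ℕ) (t : Mw17Idx δ n) (R : Mw17Pt T) :
    mw17gB T n t none (some R) =
      htgHt (htlWedge (mw17Phi T n t none) (mw17Psi T n R)) - htgHt (mw17Psi T n R) := by
  rw [mw17gB, mw17g_ht_phi_none, sub_zero, mw17Phi_some]

/-- `β` is symmetric. -/
theorem mw17gB_symm (n : ℕ) (t : Mw17Idx δ n) (P R : Option (Mw17Pt T)) :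
    mw17gB T n t P R = mw17gB T n t R P := by
  unfold mw17gB
  rw [htlWedge_swap (mw17Phi T n t P) (mw17Phi T n t R), mw17g_ht_neg]
  ring

/-- the logarithm of the local chordal distance, for non-proportional vectors. -/
theorem mw17g_log_dl (n : ℕ) (t : Mw17Idx δ n) (w : AbsoluteValue HtgQb ℝ)
    (P R : Option (Mw17Pt T)) (h : htlWedge (mw17Phi T n t P) (mw17Phi T n t R) ≠ 0) :
    Real.log (mw17Dl T n t w P R) =
      Real.log (htlSup w (htlWedge (mw17Phi T n t P) (mw17Phi T n t R))) -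
        Real.log (htlSup w (mw17Phi T n t P)) - Real.log (htlSup w (mw17Phi T n t R)) := by
  have h1 := (htlSup_pos_iff (w := w)).2 h
  have h2 := (htlSup_pos_iff (w := w)).2 (mw17Phi_ne_zero T n t P)
  have h3 := (htlSup_pos_iff (w := w)).2 (mw17Phi_ne_zero T n t R)
  rw [mw17Dl, htlDist, Real.log_div h1.ne' (mul_pos h2 h3).ne', Real.log_mul h2.ne' h3.ne']
  ring

/-! ### distinct points have non-proportional vectors -/

/-- `ψ_n` separates the finite points as soon as `x` and the `e_j` are among the monomials of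
`L_n`. -/
theorem mw17g_psi_injective (n : ℕ) (hN : δ.N ≤ n) (hd : ∀ j, δ.d j ≤ n) :
    Function.Injective (mw17Psi T n) := by
  intro q q' h
  have hx : q V27pB.x = q' V27pB.x := by
    have := congrFun h ⟨((0 : ZMod δ.N), ⟨1, by have := δ.hN; omega⟩), by
      simp only [δ.d_zero]; omega⟩
    simpa [mw17Psi, mw17Mon, V27pB.e_zero] using this
  have he : ∀ j, q (V27pB.e j) = q' (V27pB.e j) := by
    intro j
    have := congrFun h ⟨(j, (0 : Fin (n + 1))), by simpa using hd j⟩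
    simpa [mw17Psi, mw17Mon] using this
  have h1 : v27cbPt T q = v27cbPt T q' := by
    funext o
    cases o with
    | none => exact hx
    | some j => exact he j
  rw [← v27cbHom_pt T q, ← v27cbHom_pt T q']
  congr 1

/-- distinct finite points have non-proportional vectors `φP`, `φR`. -/
theorem mw17g_wedge_ne_zero (n : ℕ) (hN : δ.N ≤ n) (hd : ∀ j, δ.d j ≤ n) (t : Mw17Idx δ n)
    {P R : Mw17Pt T} (h : P ≠ R) :
    htlWedge (mw17Phi T n t (some P)) (mw17Phi T n t (some R)) ≠ 0 := by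
  intro h0
  apply h
  apply mw17g_psi_injective T n hN hd
  have h1 := htl_eq_smul_of_wedge_eq_zero h0 (i₀ := mw17IdxZero δ n)
    (by rw [mw17Phi_some, mw17Psi_zero]; exact one_ne_zero)
  rw [mw17Phi_some, mw17Phi_some, mw17Psi_zero, mw17Psi_zero, div_one, one_smul] at h1
  exact h1.symm

/-- `P0` and a finite point have non-proportional vectors (`t` is not the index of `1`). -/
theorem mw17g_wedge_none_ne_zero (n : ℕ) (t : Mw17Idx δ n) (ht : t ≠ mw17IdxZero δ n)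
    (R : Mw17Pt T) : htlWedge (mw17Phi T n t none) (mw17Phi T n t (some R)) ≠ 0 := by
  intro h0
  have := congrFun h0 (t, mw17IdxZero δ n)
  rw [htlWedge_apply, mw17Phi_none, mw17Phi_some, mw17Psi_zero, Pi.single_eq_same,
    Pi.single_eq_of_ne (Ne.symm ht)] at this
  simp at this

/-- the top index (weight `n ≠ 0`) is not the index of `1`. -/
theorem mw17g_top_ne_zero (n : ℕ) (hn : n ≠ 0) (t : Mw17Idx δ n) (ht : mw17Wt t = n) :
    t ≠ mw17IdxZero δ n := by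
  rintro rfl
  apply hn
  rw [← ht]
  simp [mw17Wt, mw17IdxZero, δ.d_zero]

/-- **`β ≤ log 2`** for distinct points (non-proportional vectors). -/
theorem mw17gB_le (n : ℕ) (t : Mw17Idx δ n) (P R : Option (Mw17Pt T))
    (h : htlWedge (mw17Phi T n t P) (mw17Phi T n t R) ≠ 0) :
    mw17gB T n t P R ≤ htgC ⟨∅, 1, 0⟩ := by
  have key := mw17g_lin3_le (htlWedge (mw17Phi T n t P) (mw17Phi T n t R)) (mw17Phi T n t P)
    (mw17Phi T n t R) h (mw17Phi_ne_zero T n t P) (mw17Phi_ne_zero T n t R) 1 (-1) (-1)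
    ⟨∅, 1, 0⟩ fun w => by
      have h1 := (htlSup_pos_iff (w := w.1)).2 h
      have h2 := (htlSup_pos_iff (w := w.1)).2 (mw17Phi_ne_zero T n t P)
      have h3 := (htlSup_pos_iff (w := w.1)).2 (mw17Phi_ne_zero T n t R)
      have ha : 0 < htlArch w.1 2 := htlArch_pos w.1 (by norm_num)
      have hw := htlSup_wedge_le w.1 (mw17Phi T n t P) (mw17Phi T n t R)
      have hl := Real.log_le_log h1 hw
      rw [Real.log_mul ha.ne' (mul_pos h2 h3).ne', Real.log_mul h2.ne' h3.ne'] at hl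
      rw [mw17g_val_two]
      linarith
  unfold mw17gB
  linarith

theorem mw17gB_le_log_two (n : ℕ) (t : Mw17Idx δ n) (P R : Option (Mw17Pt T))
    (h : htlWedge (mw17Phi T n t P) (mw17Phi T n t R) ≠ 0) :
    mw17gB T n t P R ≤ Real.log 2 :=
  mw17g_htgC_two ▸ mw17gB_le T n t P R h

/-- `β(P,R) ≤ log 2` for distinct finite points. -/
theorem mw17gB_le_of_ne (n : ℕ) (hN : δ.N ≤ n) (hd : ∀ j, δ.d j ≤ n) (t : Mw17Idx δ n)
    {P R : Mw17Pt T} (h : P ≠ R) : mw17gB T n t (some P) (some R) ≤ Real.log 2 :=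
  mw17gB_le_log_two T n t _ _ (mw17g_wedge_ne_zero T n hN hd t h)

/-- `β(P0,R) ≤ log 2`. -/
theorem mw17gB_none_le (n : ℕ) (t : Mw17Idx δ n) (ht : t ≠ mw17IdxZero δ n) (R : Mw17Pt T) :
    mw17gB T n t none (some R) ≤ Real.log 2 :=
  mw17gB_le_log_two T n t _ _ (mw17g_wedge_none_ne_zero T n t ht R)

/-- **(GS-P0)** : `β(P0,R) = −hP0(R) + O(1)`, from the local comparison `δ_w(P0,R)^n ≍ ‖φR‖_w⁻¹`. -/
theorem mw17g_p0 (n : ℕ) (hn : n ≠ 0) (t : Mw17Idx δ n) (hP0 : Mw17P0Loc T n t) :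
    ∃ C : ℝ, ∀ R : Mw17Pt T, |mw17gB T n t none (some R) + mw17gH0 T n t (some R)| ≤ C := by
  obtain ⟨C, hC⟩ := hP0
  refine ⟨htgC C, fun R => ?_⟩
  have hn' : (1 : ℝ) ≤ n := by exact_mod_cast Nat.one_le_iff_ne_zero.mpr hn
  have hn0 : (0 : ℝ) < n := lt_of_lt_of_le one_pos hn'
  -- the wedge does not vanish
  have hwed : htlWedge (mw17Phi T n t none) (mw17Phi T n t (some R)) ≠ 0 := by
    intro h0
    have h2 := (hC (htgW none) R).2
    have hz : mw17Dl T n t (htgW none).1 none (some R) = 0 := by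
      rw [mw17Dl, htlDist, h0, htlSup_zero, zero_div]
    rw [hz, zero_pow hn, zero_mul, mul_zero] at h2
    linarith
  have key := mw17g_lin3_abs_le (htlWedge (mw17Phi T n t none) (mw17Phi T n t (some R)))
    (mw17Phi T n t none) (mw17Phi T n t (some R)) hwed (mw17Phi_ne_zero T n t none)
    (mw17Phi_ne_zero T n t (some R)) n (-n) (1 - n) C fun w => by
      obtain ⟨hle, hge⟩ := hC w R
      have h3 : 0 < htlSup w.1 (mw17Psi T n R) :=
        (htlSup_pos_iff (w := w.1)).2 (mw17Psi_ne_zero T n R)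
      have hd : 0 < mw17Dl T n t w.1 none (some R) := by
        rcases (htlDist_nonneg w.1 (mw17Phi T n t none) (mw17Phi T n t (some R))).lt_or_eq with
          h | h
        · exact h
        · exfalso
          exact hwed ((htlDist_eq_zero_iff w.1 (mw17Phi_ne_zero T n t none)
            (mw17Phi_ne_zero T n t (some R))).1 h.symm)
      have hlog := mw17g_log_dl T n t w.1 none (some R) hwed
      have hprod : 0 < mw17Dl T n t w.1 none (some R) ^ n * htlSup w.1 (mw17Psi T n R) :=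
        mul_pos (pow_pos hd n) h3
      have hCpos := htl_val_pos C w.1
      have e : Real.log (mw17Dl T n t w.1 none (some R) ^ n * htlSup w.1 (mw17Psi T n R)) =
          n * Real.log (mw17Dl T n t w.1 none (some R)) +
            Real.log (htlSup w.1 (mw17Psi T n R)) := by
        rw [Real.log_mul (pow_pos hd n).ne' h3.ne', Real.log_pow]
      have hup := Real.log_le_log hprod hle
      have hlo := Real.log_le_log one_pos hge
      rw [Real.log_one, Real.log_mul hCpos.ne' hprod.ne'] at hlo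
      rw [e] at hup hlo
      rw [hlog, mw17Phi_some] at hup hlo
      rw [mw17Phi_some, abs_le]
      constructor <;> nlinarith
  rw [mw17g_ht_phi_none, mul_zero, add_zero] at key
  have hexp : (n : ℝ) * htgHt (htlWedge (mw17Phi T n t none) (mw17Phi T n t (some R))) +
      (1 - n) * htgHt (mw17Phi T n t (some R)) =
      n * (mw17gB T n t none (some R) + mw17gH0 T n t (some R)) := by
    rw [mw17gB, mw17g_ht_phi_none, mw17gH0]
    field_simp
    ring
  rw [hexp, abs_mul, abs_of_pos hn0] at key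
  have hnn := abs_nonneg (mw17gB T n t none (some R) + mw17gH0 T n t (some R))
  nlinarith

/-! ### the global interface statements -/

/-- **(GS-off)** : the global form of (★-off), by the product formula on the value `R (sec u)`. -/
def Mw17StarOffGlob (n : ℕ) (t : Mw17Idx δ n) (m₁ : ℕ) : Prop :=
  ∃ C : ℝ, ∀ (u : Mw17Idx δ (n * m₁) → HtgQb), u ≠ 0 →
    ∀ Z : Multiset (Mw17Pt T), Mw17IsZeros T (mw17Sec T (n * m₁) u) Z → ∀ R : Mw17Pt T,
      R (mw17Sec T (n * m₁) u) ≠ 0 →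
      |(Z.map fun P : Mw17Pt T => mw17gB T n t (some P) (some R)).sum +
        ((n * m₁ - Z.card : ℕ) : ℝ) * mw17gB T n t none (some R) + htgHt u +
        m₁ * htgHt (mw17Psi T n R)| ≤ C

/-- **(GS-M)** : the global form of (M) : `n · h(u) = ∑_{P ∈ Z(u)} htgHt (φP) + O(1)`. -/
def Mw17MGlob (n : ℕ) (m₁ : ℕ) : Prop :=
  ∃ C : ℝ, ∀ (u : Mw17Idx δ (n * m₁) → HtgQb), u ≠ 0 →
    ∀ Z : Multiset (Mw17Pt T), Mw17IsZeros T (mw17Sec T (n * m₁) u) Z →
      |n * htgHt u - (Z.map fun P : Mw17Pt T => htgHt (mw17Psi T n P)).sum| ≤ C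

/-- **(GS-tan)** : the global form of (★-tan), at a simple zero `R ∉ Ram(x)` of `sec u`. -/
def Mw17StarTanGlob (n : ℕ) (t : Mw17Idx δ n) (m₁ : ℕ) : Prop :=
  ∃ C : ℝ, ∀ (u : Mw17Idx δ (n * m₁) → HtgQb), u ≠ 0 →
    ∀ (R : Mw17Pt T) (Z' : Multiset (Mw17Pt T)),
      Mw17IsZeros T (mw17Sec T (n * m₁) u) (R ::ₘ Z') → R ∉ Z' → R ∉ mw17jtRamX T →
      |(Z'.map fun P : Mw17Pt T => mw17gB T n t (some P) (some R)).sum +
        ((n * m₁ - (Z'.card + 1) : ℕ) : ℝ) * mw17gB T n t none (some R) + mw17gBt T n R +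
        htgHt u + m₁ * htgHt (mw17Psi T n R)| ≤ C

/-- **(EPS)** : `−β(E,Q) = (1 ± ε) hP0(Q) + O_{E,ε}(1)` for a fixed finite point `E`. -/
def Mw17Eps (n : ℕ) (t : Mw17Idx δ n) : Prop :=
  ∀ (E : Mw17Pt T) (ε : ℝ), 0 < ε → ∃ C : ℝ, ∀ Q : Mw17Pt T, Q ≠ E →
    |mw17gB T n t (some E) (some Q) + mw17gH0 T n t (some Q)| ≤
      ε * mw17gH0 T n t (some Q) + C

/-- **(GS-P0)** as a `Prop`, for the consumers : `β(P0,R) = −hP0(R) + O(1)`. -/
def Mw17P0Glob (n : ℕ) (t : Mw17Idx δ n) : Prop :=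
  ∃ C : ℝ, ∀ R : Mw17Pt T, |mw17gB T n t none (some R) + mw17gH0 T n t (some R)| ≤ C

theorem mw17g_p0Glob (n : ℕ) (hn : n ≠ 0) (t : Mw17Idx δ n) (hP0 : Mw17P0Loc T n t) :
    Mw17P0Glob T n t :=
  mw17g_p0 T n hn t hP0

end Curve

end Fermat.Agent.MW17
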