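import Mathlib
import Fermat.Agent.MW17.Glob.Defs
import Fermat.Agent.MW17.P0Loc

/-!
# Program MW (S17), heights half (A): (GS-P0), unconditional

Owner: helper22.  Namespace `Fermat.Agent.MW17`, prefix `mw17g`.

helper28's `mw17pz_main : Mw17P0Loc T n t` (`MW17/P0Loc.lean`) plugged into `mw17g_p0Glob`
(`MW17/Glob/Defs.lean`) : for `n ≥ 2·δ.bound + 1` and a top index `t` (`mw17Wt t = n`),

  `∃ C, ∀ R, |β(P0,R) + hP0(R)| ≤ C`,

together with `β(P0,R) ≤ log 2` in the same hypotheses.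
-/

set_option autoImplicit false

namespace Fermat.Agent.MW17

open Fermat.Agent.V Fermat.Agent.HT

variable {δ : V27pShape} (T : V27pTable HtgQb δ)

/-- **(GS-P0)**, unconditional : `β(P0,R) = −hP0(R) + O(1)`. -/
theorem mw17g_p0Glob_main {n : ℕ} (hn : 2 * δ.bound + 1 ≤ n) (t : Mw17Idx δ n)
    (ht : mw17Wt t = n) : Mw17P0Glob T n t :=
  mw17g_p0Glob T n (by omega) t (mw17pz_main T hn t ht)

/-- `β(P0,R) ≤ log 2` for a top index `t`. -/
theorem mw17gB_none_le_top {n : ℕ} (hn : n ≠ 0) (t : Mw17Idx δ n) (ht : mw17Wt t = n)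
    (R : Mw17Pt T) : mw17gB T n t none (some R) ≤ Real.log 2 :=
  mw17gB_none_le T n t (mw17g_top_ne_zero n hn t ht) R

end Fermat.Agent.MW17
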