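import Fermat.Agent.MW17.Glob.Princ
import Fermat.Agent.MW17.Glob.Defs

/-!
# Program MW (S17), §7: the pairing height on `Pic0`, instantiated at the global quantities

Owner: helper22 (glue).  Namespace `Fermat.Agent.MW17`, prefix `mw17g`.

helper15's `mw17gp_main` (`MW17/Glob/Princ.lean`, abstract in `b`, `Hu`, `Hφ`) instantiated at
`b P r := mw17gB T n t P (some r)`, `Hu _ u := htgHt u`, `Hφ r := htgHt (mw17Psi T n r)` of
`MW17/Glob/Defs.lean`: its hypothesis `hoff` is `fun m₁ => Mw17StarOffGlob T n t m₁` by unfolding,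
the symmetry is `mw17gB_symm`.  Output: a height `h` on `Pic0` with the parallelogram law up to a
constant (= input (H7) `hpar` of helper2's `mw17mn_main`), computed by `mw17paB` on disjoint
representatives.
-/

set_option autoImplicit false

namespace Fermat.Agent.MW17

open AlgebraicCurve Fermat.Agent.V Fermat.Agent.V.RR Fermat.Agent.HT

variable {F : Type*} [Field F] [Algebra HtgQb F] {δ : V27pShape} {T : V27pTable HtgQb δ}
  [IsDedekindDomain (V27pB T)] (P : V27Presented HtgQb F T)

/-- **(PRINC) + pairing ⇒ parallelogram law**, instantiated at the global quantities. -/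
theorem mw17g_pair_main {g : ℕ} (R : V27RR HtgQb F g) (n : ℕ) (hn : 1 ≤ n) (t : Mw17Idx δ n)
    (hoff : ∀ m₁ : ℕ, Mw17StarOffGlob T n t m₁) :
    ∃ h : Pic0 HtgQb F → ℝ,
      (∃ C : ℝ, ∀ x y : Pic0 HtgQb F, |h (x + y) + h (x - y) - 2 * (h x + h y)| ≤ C) ∧
      ∀ s : ℕ, ∃ C : ℝ, ∀ (A : Option (Mw17Pt T) →₀ ℤ) (W : Mw17Pt T →₀ ℤ), mw17paDeg A = 0 →
        mw17paDeg W = 0 → mw17paSize A ≤ s → mw17paSize W ≤ s → Mw17paOff A W →
        mw17prCl P (mw17paIota W) = mw17prCl P A →
        |mw17paB (fun P r => mw17gB T n t P (some r)) A W - h (mw17prCl P A)| ≤ C :=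
  mw17gp_main P R n hn (fun P r => mw17gB T n t P (some r))
    (fun p q => mw17gB_symm T n t (some p) (some q))
    (fun _ u => htgHt u) (fun r => htgHt (mw17Psi T n r)) hoff

end Fermat.Agent.MW17
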