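import Mathlib
import Fermat.Agent.MW17.Glob.Defs
import Fermat.Agent.HT.Glob.LocGlob
import Fermat.Agent.MW17.JetZeros

/-!
# Program MW (S17), heights half (A): (★-off), (★-tan) from LOCAL to GLOBAL

Owner: helper17 (assigned by the architect helper16, board 3312 (3)).  Namespace
`Fermat.Agent.MW17`, prefix `mw17gs`.  `K := HtgQb`.

* `mw17gs_off : Mw17StarOff T n t m₁ → Mw17StarOffGlob T n t m₁`  (GS-off);
* `mw17gs_tan : Mw17StarTan T n t m₁ → Mw17StarTanGlob T n t m₁`  (GS-tan)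
  (needs `[IsDedekindDomain (V27pB T)]` for helper14's `mw17jz_jet_sec_ne_zero`: a simple zero off
  `Ram(x)` has a nonvanishing jet).

Both are instances of helper13's local-to-global calculus `HtgrLG` (`HT/Glob/LocGlob.lean`): the
value `R (sec u)` (resp. the jet) is a nonzero number, so `log w(·)` has global value `0` (product
formula), and the logarithm of the right-hand side of (★) has global value
`h(u) + m₁ h(φR) + (m - |Z|) β(P0,R) + Σ_{P ∈ Z} β(P,R)` (`+ βtan(R)`).  All wedges that occur are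
nonzero because the right-hand side is positive at one (hence every) place.
(GS-M) is helper3's `MW17/Glob/StarM.lean`.
-/

set_option autoImplicit false

noncomputable section

namespace Fermat.Agent.MW17

open Fermat.Agent.V Fermat.Agent.HT

variable {δ : V27pShape} (T : V27pTable HtgQb δ)

/-- a positive lower bound `0 < A ≤ c * B` with `0 ≤ c` forces `0 < B`. -/
theorem mw17gs_pos_of_le {A B c : ℝ} (hA : 0 < A) (hc : 0 ≤ c) (h : A ≤ c * B) : 0 < B := by
  by_contra hB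
  have : c * B ≤ 0 := mul_nonpos_of_nonneg_of_nonpos hc (not_lt.mp hB)
  linarith

/-- nonvanishing of the chordal distance means nonvanishing of the wedge. -/
theorem mw17gs_wedge_ne_zero (n : ℕ) (t : Mw17Idx δ n) (w : AbsoluteValue HtgQb ℝ)
    (P R : Option (Mw17Pt T)) (h : mw17Dl T n t w P R ≠ 0) :
    htlWedge (mw17Phi T n t P) (mw17Phi T n t R) ≠ 0 := fun h0 => by
  apply h
  rw [mw17Dl, htlDist, h0, htlSup_zero, zero_div]

/-- `log δ_w(P,R)` has global value `β(P,R)`. -/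
theorem mw17gs_lg_dl (n : ℕ) (t : Mw17Idx δ n) (P R : Option (Mw17Pt T))
    (h : htlWedge (mw17Phi T n t P) (mw17Phi T n t R) ≠ 0) :
    HtgrLG (fun w => Real.log (mw17Dl T n t w.1 P R)) (mw17gB T n t P R) :=
  (htgr_logDist (mw17Phi T n t P) (mw17Phi T n t R) (mw17Phi_ne_zero T n t P)
    (mw17Phi_ne_zero T n t R) h).congr (fun _ => rfl) rfl

/-- `log δ_w(P,R)^k` has global value `k β(P,R)` (no condition if `k = 0`). -/
theorem mw17gs_lg_dl_pow (n : ℕ) (t : Mw17Idx δ n) (P R : Option (Mw17Pt T)) (k : ℕ)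
    (h : k = 0 ∨ htlWedge (mw17Phi T n t P) (mw17Phi T n t R) ≠ 0) :
    HtgrLG (fun w => Real.log (mw17Dl T n t w.1 P R ^ k)) ((k : ℝ) * mw17gB T n t P R) := by
  rcases h with rfl | h
  · exact htgr_zero.congr (fun w => by rw [pow_zero, Real.log_one]) (by simp)
  · exact ((mw17gs_lg_dl T n t P R h).nat_mul k).congr (fun w => by rw [Real.log_pow]) rfl

/-- the logarithm of the common part of the right-hand sides of (★-off) and (★-tan):
`‖u‖ ‖φR‖^{m₁} δ(P0,R)^k ∏_{P ∈ Z} δ(P,R)`, with its global value. -/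
theorem mw17gs_lg_rhs (n : ℕ) (t : Mw17Idx δ n) (m₁ k : ℕ) {u : Mw17Idx δ (n * m₁) → HtgQb}
    (hu : u ≠ 0) (Z : Multiset (Mw17Pt T)) (R : Mw17Pt T)
    (hk : k = 0 ∨ htlWedge (mw17Phi T n t none) (mw17Phi T n t (some R)) ≠ 0)
    (hZ : ∀ P ∈ Z, htlWedge (mw17Phi T n t (some P)) (mw17Phi T n t (some R)) ≠ 0) :
    HtgrLG (fun w => Real.log (htlSup w.1 u * htlSup w.1 (mw17Psi T n R) ^ m₁ *
        mw17Dl T n t w.1 none (some R) ^ k *
        (Z.map fun P : Mw17Pt T => mw17Dl T n t w.1 (some P) (some R)).prod))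
      (htgHt u + (m₁ : ℝ) * htgHt (mw17Psi T n R) + (k : ℝ) * mw17gB T n t none (some R) +
        (Z.map fun P : Mw17Pt T => mw17gB T n t (some P) (some R)).sum) := by
  have h1 := htgr_logSup u hu
  have h2 := htgr_logSup_pow (mw17Psi T n R) (mw17Psi_ne_zero T n R) m₁
  have h3 := mw17gs_lg_dl_pow T n t none (some R) k hk
  have h4 := HtgrLG.multiset_sum Z
    (L := fun (P : Mw17Pt T) (w : HtAbs HtgQb) => Real.log (mw17Dl T n t w.1 (some P) (some R)))
    (G := fun P : Mw17Pt T => mw17gB T n t (some P) (some R))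
    (fun P hP => mw17gs_lg_dl T n t (some P) (some R) (hZ P hP))
  refine (((h1.add h2).add h3).add h4).congr (fun w => ?_) rfl
  have p1 : 0 < htlSup w.1 u := htlSup_pos_iff.mpr hu
  have p2 : 0 < htlSup w.1 (mw17Psi T n R) ^ m₁ :=
    pow_pos (htlSup_pos_iff.mpr (mw17Psi_ne_zero T n R)) m₁
  have hdpos : ∀ P R' : Option (Mw17Pt T),
      htlWedge (mw17Phi T n t P) (mw17Phi T n t R') ≠ 0 → 0 < mw17Dl T n t w.1 P R' := by
    intro P R' h
    rcases (htlDist_nonneg w.1 (mw17Phi T n t P) (mw17Phi T n t R')).lt_or_eq with h' | h'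
    · exact h'
    · exact absurd ((htlDist_eq_zero_iff w.1 (mw17Phi_ne_zero T n t P)
        (mw17Phi_ne_zero T n t R')).1 h'.symm) h
  have p3 : 0 < mw17Dl T n t w.1 none (some R) ^ k := by
    rcases hk with rfl | hk
    · rw [pow_zero]; exact one_pos
    · exact pow_pos (hdpos _ _ hk) k
  have p4 : ∀ P ∈ Z, 0 < mw17Dl T n t w.1 (some P) (some R) := fun P hP => hdpos _ _ (hZ P hP)
  have p5 : 0 < (Z.map fun P : Mw17Pt T => mw17Dl T n t w.1 (some P) (some R)).prod := by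
    apply Multiset.prod_pos
    intro x hx
    obtain ⟨P, hP, rfl⟩ := Multiset.mem_map.mp hx
    exact p4 P hP
  rw [Real.log_mul (mul_pos (mul_pos p1 p2) p3).ne' p5.ne',
    Real.log_mul (mul_pos p1 p2).ne' p3.ne', Real.log_mul p1.ne' p2.ne',
    htgr_log_multiset_prod Z _ p4]

/-- from the nonvanishing of the right-hand side at ONE place: all wedges are nonzero. -/
theorem mw17gs_wedges_of_ne_zero (n : ℕ) (t : Mw17Idx δ n) (k : ℕ) (w : AbsoluteValue HtgQb ℝ)
    (Z : Multiset (Mw17Pt T)) (R : Mw17Pt T)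
    (h1 : mw17Dl T n t w none (some R) ^ k ≠ 0)
    (h2 : (Z.map fun P : Mw17Pt T => mw17Dl T n t w (some P) (some R)).prod ≠ 0) :
    (k = 0 ∨ htlWedge (mw17Phi T n t none) (mw17Phi T n t (some R)) ≠ 0) ∧
      ∀ P ∈ Z, htlWedge (mw17Phi T n t (some P)) (mw17Phi T n t (some R)) ≠ 0 := by
  constructor
  · by_cases hk : k = 0
    · exact Or.inl hk
    · right
      refine mw17gs_wedge_ne_zero T n t w none (some R) fun h0 => h1 ?_
      rw [h0, zero_pow hk]
  · intro P hP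
    refine mw17gs_wedge_ne_zero T n t w (some P) (some R) fun h0 => h2 ?_
    exact Multiset.prod_eq_zero (Multiset.mem_map.2 ⟨P, hP, h0⟩)

/-- **(GS-off)**: the global form of (★-off). -/
theorem mw17gs_off (n : ℕ) (t : Mw17Idx δ n) (m₁ : ℕ) (h : Mw17StarOff T n t m₁) :
    Mw17StarOffGlob T n t m₁ := by
  obtain ⟨C, hC⟩ := h
  refine ⟨htgC C, fun u hu Z hZ R hR => ?_⟩
  have hApos : ∀ w : HtAbs HtgQb, 0 < w.1 (R (mw17Sec T (n * m₁) u)) := fun w => w.1.pos hR
  have hBpos : ∀ w : HtAbs HtgQb, 0 < mw17StarRhs T n t m₁ w.1 u Z R := fun w =>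
    mw17gs_pos_of_le (hApos w) (htl_val_nonneg C w.1) (hC w u hu Z hZ R).1
  -- the wedges
  have h0 := (hBpos (htgW none)).ne'
  unfold mw17StarRhs at h0
  obtain ⟨hk, hw⟩ := mw17gs_wedges_of_ne_zero T n t (n * m₁ - Z.card) (htgW none).1 Z R
    (right_ne_zero_of_mul (left_ne_zero_of_mul h0)) (right_ne_zero_of_mul h0)
  have hA : HtgrLG (fun w => Real.log (w.1 (R (mw17Sec T (n * m₁) u)))) 0 :=
    (htgr_log _ hR).congr (fun _ => rfl) rfl
  have hB := mw17gs_lg_rhs T n t m₁ (n * m₁ - Z.card) hu Z R hk hw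
  have key := htgr_abs_sub_le_of_mul hA
    (hB.congr (L' := fun w => Real.log (mw17StarRhs T n t m₁ w.1 u Z R)) (fun _ => rfl) rfl)
    C hApos hBpos fun w => hC w u hu Z hZ R
  rw [zero_sub, abs_neg] at key
  refine le_of_eq_of_le (congrArg _ ?_) key
  ring

/-- **(GS-tan)**: the global form of (★-tan). -/
theorem mw17gs_tan [IsDedekindDomain (V27pB T)] (n : ℕ) (t : Mw17Idx δ n) (m₁ : ℕ)
    (h : Mw17StarTan T n t m₁) : Mw17StarTanGlob T n t m₁ := by
  obtain ⟨C, hC⟩ := h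
  refine ⟨htgC C, fun u hu R Z' hZ hR hram => ?_⟩
  have hjet : mw17jtJetT T R (mw17Sec T (n * m₁) u) ≠ 0 := mw17jz_jet_sec_ne_zero T hZ hR hram
  have hApos : ∀ w : HtAbs HtgQb, 0 < w.1 (mw17jtJetT T R (mw17Sec T (n * m₁) u)) :=
    fun w => w.1.pos hjet
  have hBpos : ∀ w : HtAbs HtgQb, 0 < mw17Tw T n w.1 R *
      (htlSup w.1 u * htlSup w.1 (mw17Psi T n R) ^ m₁ *
        mw17Dl T n t w.1 none (some R) ^ (n * m₁ - (Z'.card + 1)) *
        (Z'.map fun P : Mw17Pt T => mw17Dl T n t w.1 (some P) (some R)).prod) := fun w =>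
    mw17gs_pos_of_le (hApos w) (htl_val_nonneg C w.1) (hC w u hu R Z' hZ hram).1
  -- the wedges
  have h0 := (hBpos (htgW none)).ne'
  have h0r := right_ne_zero_of_mul h0
  obtain ⟨hk, hw⟩ := mw17gs_wedges_of_ne_zero T n t (n * m₁ - (Z'.card + 1)) (htgW none).1 Z' R
    (right_ne_zero_of_mul (left_ne_zero_of_mul h0r)) (right_ne_zero_of_mul h0r)
  have hwt : htlWedge (mw17Psi T n R) (mw17jtPsiD T n R) ≠ 0 := fun hz => by
    apply left_ne_zero_of_mul h0
    rw [mw17Tw, hz, htlSup_zero, zero_div]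
  -- the tangent factor
  have hT : HtgrLG (fun w => Real.log (mw17Tw T n w.1 R)) (mw17gBt T n R) := by
    refine ((htgr_logSup _ hwt).sub (htgr_logSup_pow (mw17Psi T n R)
      (mw17Psi_ne_zero T n R) 2)).congr (fun w => ?_) ?_
    · have p1 : 0 < htlSup w.1 (htlWedge (mw17Psi T n R) (mw17jtPsiD T n R)) :=
        htlSup_pos_iff.mpr hwt
      have p2 : 0 < htlSup w.1 (mw17Psi T n R) ^ 2 :=
        pow_pos (htlSup_pos_iff.mpr (mw17Psi_ne_zero T n R)) 2
      rw [mw17Tw, Real.log_div p1.ne' p2.ne']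
    · rw [mw17gBt]; norm_num
  have hA : HtgrLG (fun w => Real.log (w.1 (mw17jtJetT T R (mw17Sec T (n * m₁) u)))) 0 :=
    (htgr_log _ hjet).congr (fun _ => rfl) rfl
  have hB0 := mw17gs_lg_rhs T n t m₁ (n * m₁ - (Z'.card + 1)) hu Z' R hk hw
  have hTpos : ∀ w : HtAbs HtgQb, 0 < mw17Tw T n w.1 R := fun w => by
    rw [mw17Tw]
    exact div_pos (htlSup_pos_iff.mpr hwt)
      (pow_pos (htlSup_pos_iff.mpr (mw17Psi_ne_zero T n R)) 2)
  have hB := (hT.add hB0).congr
    (L' := fun w => Real.log (mw17Tw T n w.1 R *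
      (htlSup w.1 u * htlSup w.1 (mw17Psi T n R) ^ m₁ *
        mw17Dl T n t w.1 none (some R) ^ (n * m₁ - (Z'.card + 1)) *
        (Z'.map fun P : Mw17Pt T => mw17Dl T n t w.1 (some P) (some R)).prod)))
    (fun w => by
      have hpos := hBpos w
      rw [Real.log_mul (hTpos w).ne' (right_ne_zero_of_mul hpos.ne')]) rfl
  have key := htgr_abs_sub_le_of_mul hA hB C hApos hBpos fun w => hC w u hu R Z' hZ hram
  rw [zero_sub, abs_neg] at key
  refine le_of_eq_of_le (congrArg _ ?_) key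
  ring

end Fermat.Agent.MW17
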