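import Mathlib
import Fermat.Agent.MW17.Glob.Defs
import Fermat.Agent.HT.Glob.Lin

/-!
# Program MW (S17), heights half (A): (GS-M) — the global form of (M)

Owner: helper3 (paired with helper17, architect's ruling 3364 (2)).  Namespace
`Fermat.Agent.MW17`, prefix `mw17gsm`.

`mw17gsm_main : Mw17MLoc T n m₁ → Mw17MGlob T n m₁` :
from the local comparison `‖u‖_w^n ≍ |c|_w ∏_{P ∈ Z} ‖φP‖_w` (all admissible `w`, one `c ≠ 0`) to
`n · htgHt u = ∑_{P ∈ Z} htgHt (φP) + O(1)`, by helper23's `htg_lin_abs_le` (the value `c` enters as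
a 1-tuple of height `0` : product formula).

Reusable : `mw17gsm_sum_map_eq`, `mw17gsm_prod_map_eq` (a multiset sum/product indexed by `Fin`).
-/

set_option autoImplicit false
set_option linter.unusedSectionVars false
set_option linter.unusedVariables false

noncomputable section

namespace Fermat.Agent.MW17

open Fermat.Agent.V Fermat.Agent.HT

/-! ### multiset sums and products indexed by `Fin` -/

theorem mw17gsm_sum_map_eq {α : Type*} (Z : Multiset α) (f : α → ℝ) :
    (Z.map f).sum = ∑ i : Fin Z.toList.length, f (Z.toList.get i) := by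
  conv_lhs => rw [← Multiset.coe_toList Z]
  rw [Multiset.map_coe, Multiset.sum_coe, ← List.sum_ofFn]
  congr 1
  conv_lhs => rw [← List.ofFn_get Z.toList]
  rw [List.map_ofFn]
  rfl

theorem mw17gsm_prod_map_eq {α : Type*} (Z : Multiset α) (f : α → ℝ) :
    (Z.map f).prod = ∏ i : Fin Z.toList.length, f (Z.toList.get i) := by
  conv_lhs => rw [← Multiset.coe_toList Z]
  rw [Multiset.map_coe, Multiset.prod_coe, ← List.prod_ofFn]
  congr 1
  conv_lhs => rw [← List.ofFn_get Z.toList]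
  rw [List.map_ofFn]
  rfl

/-! ### the family of tuples -/

variable {δ : V27pShape}

/-- index types of the family : the section `u`, the value `c`, the vectors `φ(P_i)`. -/
def Mw17gsmI (δ : V27pShape) (n m₁ k : ℕ) : Unit ⊕ (Unit ⊕ Fin k) → Type
  | Sum.inl _ => Mw17Idx δ (n * m₁)
  | Sum.inr (Sum.inl _) => Unit
  | Sum.inr (Sum.inr _) => Mw17Idx δ n

instance mw17gsmI_finite (n m₁ k : ℕ) (a : Unit ⊕ (Unit ⊕ Fin k)) :
    Finite (Mw17gsmI δ n m₁ k a) := by
  rcases a with _ | _ | _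
  · exact inferInstanceAs (Finite (Mw17Idx δ (n * m₁)))
  · exact inferInstanceAs (Finite Unit)
  · exact inferInstanceAs (Finite (Mw17Idx δ n))

variable (T : V27pTable HtgQb δ)

/-- the family of tuples : `u`, the 1-tuple `c`, the vectors `φ(P_i)`. -/
def mw17gsmY (n m₁ k : ℕ) (u : Mw17Idx δ (n * m₁) → HtgQb) (c : HtgQb)
    (P : Fin k → Mw17Pt T) : ∀ a, Mw17gsmI δ n m₁ k a → HtgQb
  | Sum.inl _ => u
  | Sum.inr (Sum.inl _) => fun _ => c
  | Sum.inr (Sum.inr i) => mw17Psi T n (P i)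

/-- the exponents : `n, -1, -1, …, -1`. -/
def mw17gsmC (n k : ℕ) : Unit ⊕ (Unit ⊕ Fin k) → ℝ
  | Sum.inl _ => n
  | Sum.inr (Sum.inl _) => -1
  | Sum.inr (Sum.inr _) => -1

theorem mw17gsm_sum (n m₁ k : ℕ) (u : Mw17Idx δ (n * m₁) → HtgQb) (c : HtgQb)
    (P : Fin k → Mw17Pt T) (Φ : ∀ a, (Mw17gsmI δ n m₁ k a → HtgQb) → ℝ) :
    ∑ a, mw17gsmC n k a * Φ a (mw17gsmY T n m₁ k u c P a) =
      n * Φ (Sum.inl ()) u - Φ (Sum.inr (Sum.inl ())) (fun _ => c) -
        ∑ i, Φ (Sum.inr (Sum.inr i)) (mw17Psi T n (P i)) := by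
  rw [Fintype.sum_sum_type, Fintype.sum_sum_type]
  simp only [Finset.univ_unique, Finset.sum_singleton, mw17gsmC, mw17gsmY]
  rw [Finset.sum_congr rfl (fun i _ => neg_one_mul _), Finset.sum_neg_distrib]
  ring

/-- **(GS-M)** : the global form of (M). -/
theorem mw17gsm_main (n m₁ : ℕ) (h : Mw17MLoc T n m₁) : Mw17MGlob T n m₁ := by
  obtain ⟨C, hC⟩ := h
  refine ⟨htgC C, fun u hu Z hZ => ?_⟩
  obtain ⟨c, hc0, hw⟩ := hC u hu Z hZ
  set k := Z.toList.length with hk
  set P : Fin k → Mw17Pt T := fun i => Z.toList.get i with hP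
  have hy : ∀ a, mw17gsmY T n m₁ k u c P a ≠ 0 := by
    rintro (_ | _ | i)
    · exact hu
    · intro h0
      exact hc0 (congrFun h0 ())
    · exact mw17Psi_ne_zero T n (P i)
  have key := htg_lin_abs_le (mw17gsmY T n m₁ k u c P) hy (mw17gsmC n k) C (fun w => by
    rw [mw17gsm_sum T n m₁ k u c P (fun a y => Real.log (htlSup w.1 y))]
    obtain ⟨h1, h2⟩ := hw w
    rw [mw17gsm_prod_map_eq] at h1 h2
    have hu0 : 0 < htlSup w.1 u := htlSup_pos_iff.mpr hu
    have hcpos : 0 < w.1 c := w.1.pos hc0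
    have hpsi : ∀ i : Fin k, 0 < htlSup w.1 (mw17Psi T n (P i)) :=
      fun i => htlSup_pos_iff.mpr (mw17Psi_ne_zero T n (P i))
    have hprod : 0 < ∏ i : Fin k, htlSup w.1 (mw17Psi T n (P i)) :=
      Finset.prod_pos fun i _ => hpsi i
    have hA : 0 < htlSup w.1 u ^ n := pow_pos hu0 n
    have hB : 0 < w.1 c * ∏ i : Fin k, htlSup w.1 (mw17Psi T n (P i)) := mul_pos hcpos hprod
    have hCpos := htl_val_pos C w.1
    have l1 := Real.log_le_log hA h1
    have l2 := Real.log_le_log hB h2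
    rw [Real.log_mul hCpos.ne' hB.ne'] at l1
    rw [Real.log_mul hCpos.ne' hA.ne'] at l2
    rw [Real.log_mul hcpos.ne' hprod.ne', Real.log_prod fun i _ => (hpsi i).ne'] at l1 l2
    rw [Real.log_pow] at l1 l2
    have hunit : htlSup w.1 (fun _ : Unit => c) = w.1 c := by
      rw [htlSup_def, ciSup_unique]
    change |(n : ℝ) * Real.log (htlSup w.1 u) - Real.log (htlSup w.1 (fun _ : Unit => c)) -
      ∑ i, Real.log (htlSup w.1 (mw17Psi T n (P i)))| ≤ _
    rw [hunit, abs_le]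
    constructor <;> linarith)
  rw [mw17gsm_sum T n m₁ k u c P (fun a y => htgHt y)] at key
  change |(n : ℝ) * htgHt u - htgHt (fun _ : Unit => c) -
    ∑ i, htgHt (mw17Psi T n (P i))| ≤ _ at key
  rw [htgHt_unit hc0, sub_zero] at key
  rw [mw17gsm_sum_map_eq]
  exact key

end Fermat.Agent.MW17
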