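import Fermat.Agent.MW17.Star.Local
import Fermat.Agent.MW17.Glob.Star
import Fermat.Agent.MW17.Glob.StarM
import Fermat.Agent.MW17.Glob.P0
import Fermat.Agent.MW17.Glob.PairInst

/-!
# Program MW (S17), heights half (A): ONE import for the top - all global statements from `Mw17GData`

Owner: helper22 (architect's assignment (N3), board 3407).  Namespace `Fermat.Agent.MW17`,
prefix `mw17g`.  `K := HtgQb = AlgebraicClosure ℚ`, `t := mw17tbTop δ n` (helper26's canonical top
index), `n ≥ δ.N + 2·δ.bound + 1`.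

From the single algebraic input `∀ m₁ > 0, Nonempty (Mw17GData T n (mw17tbTop δ n) m₁)`:

* `mw17g_off_zero` : `Mw17StarOffGlob T n t 0` (sections of `L_0` are constants: product formula);
* `mw17g_all` : `(∀ m₁, Mw17StarOffGlob T n t m₁) ∧ (∀ m₁ > 0, Mw17MGlob T n m₁ ∧
  Mw17StarTanGlob T n t m₁) ∧ Mw17P0Glob T n t`
  = helper5's local wiring `mw17sl_main'` (helper6 Off/M, helper5 Tan, helper28 P0Loc, helper26 LOC-2,
  helper4 zeros) + helper17's `mw17gs_off`/`mw17gs_tan` + helper3's `mw17gsm_main` +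
  `mw17g_p0Glob_main`;
* `mw17g_all_pair` : the (H7)-package (height `h` on `Pic0` with the parallelogram law + evaluation
  on disjoint representatives) = helper15's `mw17gp_main` through `mw17g_pair_main`.
-/

set_option autoImplicit false

noncomputable section

namespace Fermat.Agent.MW17

open AlgebraicCurve Fermat.Agent.V Fermat.Agent.V.RR Fermat.Agent.HT

variable {δ : V27pShape} (T : V27pTable HtgQb δ)

/-- **(GS-off) at `m₁ = 0`** : the sections of `L_0` are the nonzero constants, without zeros, and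
their height vanishes by the product formula. -/
theorem mw17g_off_zero (n : ℕ) (t : Mw17Idx δ n) : Mw17StarOffGlob T n t 0 := by
  refine ⟨0, fun u hu Z hZ R _ => ?_⟩
  have hcard : Z.card = 0 := by
    have h1 := hZ.1
    have h2 := mw17tn_ord_sec_le T (n * 0) u
    omega
  have hZ0 : Z = 0 := Multiset.card_eq_zero.mp hcard
  subst hZ0
  have huniq : ∀ i : Mw17Idx δ (n * 0), i = mw17IdxZero δ (n * 0) := fun i =>
    mw17tb_wt_injective (by
      have h1 : mw17Wt i ≤ n * 0 := mw17Wt_le i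
      have h2 : mw17Wt (mw17IdxZero δ (n * 0)) ≤ n * 0 := mw17Wt_le _
      omega)
  let _ : Unique (Mw17Idx δ (n * 0)) := ⟨⟨mw17IdxZero δ (n * 0)⟩, huniq⟩
  have hu0 : u default ≠ 0 := by
    intro h
    apply hu
    funext i
    rw [Unique.eq_default i]
    exact h
  have hht : htgHt u = 0 := htgHt_unique u hu0
  simp [hht]

variable [IsDedekindDomain (V27pB T)] {n : ℕ}

/-- **all global statements from the algebraic core** `Mw17GData`. -/
theorem mw17g_all (hn : δ.N + 2 * δ.bound + 1 ≤ n)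
    (hD : ∀ m₁ : ℕ, 0 < m₁ → Nonempty (Mw17GData T n (mw17tbTop δ n) m₁)) :
    (∀ m₁ : ℕ, Mw17StarOffGlob T n (mw17tbTop δ n) m₁) ∧
      (∀ m₁ : ℕ, 0 < m₁ → Mw17MGlob T n m₁ ∧ Mw17StarTanGlob T n (mw17tbTop δ n) m₁) ∧
      Mw17P0Glob T n (mw17tbTop δ n) := by
  have hloc : ∀ m₁ : ℕ, 0 < m₁ →
      Mw17StarOff T n (mw17tbTop δ n) m₁ ∧ Mw17StarTan T n (mw17tbTop δ n) m₁ ∧
        Mw17MLoc T n m₁ ∧ Mw17P0Loc T n (mw17tbTop δ n) := fun m₁ hm => by
    obtain ⟨D⟩ := hD m₁ hm
    exact mw17sl_main' T hn D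
  refine ⟨fun m₁ => ?_, fun m₁ hm => ⟨mw17gsm_main T n m₁ (hloc m₁ hm).2.2.1,
    mw17gs_tan T n _ m₁ (hloc m₁ hm).2.1⟩, ?_⟩
  · rcases Nat.eq_zero_or_pos m₁ with rfl | hm
    · exact mw17g_off_zero T n _
    · exact mw17gs_off T n _ m₁ (hloc m₁ hm).1
  · exact mw17g_p0Glob_main T (by omega) _ (mw17tbTop_wt (by omega))

/-- **the (H7)-package from the algebraic core** : a height on `Pic0` with the parallelogram law up
to a constant, computed by `mw17paB` on disjoint representatives. -/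
theorem mw17g_all_pair {F : Type*} [Field F] [Algebra HtgQb F] (P : V27Presented HtgQb F T)
    {g : ℕ} (R : V27RR HtgQb F g) (hn : δ.N + 2 * δ.bound + 1 ≤ n)
    (hD : ∀ m₁ : ℕ, 0 < m₁ → Nonempty (Mw17GData T n (mw17tbTop δ n) m₁)) :
    ∃ h : Pic0 HtgQb F → ℝ,
      (∃ C : ℝ, ∀ x y : Pic0 HtgQb F, |h (x + y) + h (x - y) - 2 * (h x + h y)| ≤ C) ∧
      ∀ s : ℕ, ∃ C : ℝ, ∀ (A : Option (Mw17Pt T) →₀ ℤ) (W : Mw17Pt T →₀ ℤ), mw17paDeg A = 0 →
        mw17paDeg W = 0 → mw17paSize A ≤ s → mw17paSize W ≤ s → Mw17paOff A W →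
        mw17prCl P (mw17paIota W) = mw17prCl P A →
        |mw17paB (fun P r => mw17gB T n (mw17tbTop δ n) P (some r)) A W - h (mw17prCl P A)| ≤ C :=
  mw17g_pair_main P R n (by omega) (mw17tbTop δ n) (mw17g_all T hn hD).1

end Fermat.Agent.MW17
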