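import Mathlib

/-!
# Program MW (S17), heights half (A), leaf (EPS), abstract core

Owner: helper9.  Namespace `Fermat.Agent.MW17`, prefix `mw17ge`.  Mathlib only.

`Pt` = the finite points, `β : Pt → Pt → ℝ` the global pairing of two points, `H : Pt → ℝ` the
height with respect to the point at infinity.  A multiset `Z` of points has the *star property* if

  `∃ C, ∀ R ∉ Z, |Σ_{P ∈ Z} β(P,R) + |Z| · H(R)| ≤ C`

(this is (★-off, global) + (GS-P0) for one FIXED section with zero multiset `Z`).  From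

* `(X1)` for every point `E` and every `j` there is a star multiset `j•E + A` with `|A| ≤ c₁`;
* `(X2)` for every star multiset `j•E + A` there is a star multiset `A + A'` with `|A'| ≤ c₂`;
* `0 ≤ H`, `β(P,Q) ≤ c₀` for `P ≠ Q`,

we get **(EPS)**: `∀ E, ∀ ε > 0, ∃ C, ∀ Q ≠ E, |β(E,Q) + H(Q)| ≤ ε · H(Q) + C`.
-/

set_option autoImplicit false

namespace Fermat.Agent.MW17

variable {Pt : Type*} (β : Pt → Pt → ℝ) (H : Pt → ℝ)

/-- the star property of a multiset of points -/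
def Mw17geStar (Z : Multiset Pt) : Prop :=
  ∃ C : ℝ, ∀ R : Pt, R ∉ Z → |(Z.map fun P => β P R).sum + (Z.card : ℝ) * H R| ≤ C

variable {β H}

/-- the sum of `β(·,Q)` over a multiset of points different from `Q` is bounded above -/
theorem mw17ge_sum_le {c₀ : ℝ} (hβ : ∀ P Q, P ≠ Q → β P Q ≤ c₀) (A : Multiset Pt) (Q : Pt)
    (hQ : Q ∉ A) : (A.map fun P => β P Q).sum ≤ (A.card : ℝ) * |c₀| := by
  have h := Multiset.sum_le_card_nsmul (A.map fun P => β P Q) |c₀| (by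
    intro x hx
    obtain ⟨P, hP, rfl⟩ := Multiset.mem_map.mp hx
    exact (hβ P Q (fun h => hQ (h ▸ hP))).trans (le_abs_self c₀))
  rwa [Multiset.card_map, nsmul_eq_mul] at h

/-- **(EPS), abstract form.** -/
theorem mw17ge_eps_abs (hH : ∀ P, 0 ≤ H P) {c₀ : ℝ} (hβ : ∀ P Q, P ≠ Q → β P Q ≤ c₀) (c₁ c₂ : ℕ)
    (hX1 : ∀ (E : Pt) (j : ℕ), ∃ A : Multiset Pt,
      Mw17geStar β H (Multiset.replicate j E + A) ∧ A.card ≤ c₁)
    (hX2 : ∀ (E : Pt) (j : ℕ) (A : Multiset Pt), Mw17geStar β H (Multiset.replicate j E + A) →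
      ∃ A' : Multiset Pt, Mw17geStar β H (A + A') ∧ A'.card ≤ c₂)
    (E : Pt) (ε : ℝ) (hε : 0 < ε) :
    ∃ C : ℝ, ∀ Q : Pt, Q ≠ E → |β E Q + H Q| ≤ ε * H Q + C := by
  classical
  -- choose `j`
  obtain ⟨j, hj⟩ : ∃ j : ℕ, ((c₁ + c₂ + 1 : ℕ) : ℝ) / ε ≤ (j : ℝ) := exists_nat_ge _
  have hjpos : (0 : ℝ) < j := lt_of_lt_of_le (div_pos (by positivity) hε) hj
  have hj' : ((c₁ + c₂ + 1 : ℕ) : ℝ) ≤ ε * j := by
    rw [div_le_iff₀ hε] at hj
    linarith
  have hc₁ : (c₁ : ℝ) ≤ ε * j := by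
    have : (c₁ : ℝ) ≤ ((c₁ + c₂ + 1 : ℕ) : ℝ) := by
      push_cast; linarith [Nat.cast_nonneg (α := ℝ) c₂]
    linarith
  have hc₂ : (c₂ : ℝ) ≤ ε * j := by
    have : (c₂ : ℝ) ≤ ((c₁ + c₂ + 1 : ℕ) : ℝ) := by
      push_cast; linarith [Nat.cast_nonneg (α := ℝ) c₁]
    linarith
  obtain ⟨A, ⟨CZ, hCZ⟩, hAcard⟩ := hX1 E j
  obtain ⟨A', ⟨C1, hC1⟩, hA'card⟩ := hX2 E j A ⟨CZ, hCZ⟩
  set Z : Multiset Pt := Multiset.replicate j E + A with hZeq
  set Z₁ : Multiset Pt := A + A' with hZ₁eq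
  have hcardZ : (Z.card : ℝ) = j + A.card := by
    rw [hZeq, Multiset.card_add, Multiset.card_replicate]
    push_cast
    rfl
  have hcardZ₁ : (Z₁.card : ℝ) = A.card + A'.card := by
    rw [hZ₁eq, Multiset.card_add]
    push_cast
    rfl
  have hAle : (A.card : ℝ) ≤ c₁ := by exact_mod_cast hAcard
  have hA'le : (A'.card : ℝ) ≤ c₂ := by exact_mod_cast hA'card
  -- the generic constant
  set C0 : ℝ := (|CZ| + |C1| + ((c₁ : ℝ) + c₂) * |c₀|) / j with hC0
  have hC0j : C0 * j = |CZ| + |C1| + ((c₁ : ℝ) + c₂) * |c₀| := by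
    rw [hC0]; exact div_mul_cancel₀ _ hjpos.ne'
  have hC0nn : 0 ≤ C0 := by
    rw [hC0]
    apply div_nonneg _ hjpos.le
    positivity
  -- the exceptional points
  set S : Finset Pt := (Z + Z₁).toFinset with hS
  refine ⟨C0 + ∑ Q ∈ S, |β E Q + H Q|, fun Q hQE => ?_⟩
  have hsumnn : 0 ≤ ∑ Q ∈ S, |β E Q + H Q| := Finset.sum_nonneg fun _ _ => abs_nonneg _
  have hεH : 0 ≤ ε * H Q := mul_nonneg hε.le (hH Q)
  by_cases hQS : Q ∈ S
  · -- exceptional point
    have : |β E Q + H Q| ≤ ∑ Q ∈ S, |β E Q + H Q| :=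
      Finset.single_le_sum (f := fun Q => |β E Q + H Q|) (fun _ _ => abs_nonneg _) hQS
    linarith
  · -- generic point
    have hQZ : Q ∉ Z := fun h => hQS (by
      rw [hS, Multiset.mem_toFinset, Multiset.mem_add]; exact Or.inl h)
    have hQZ₁ : Q ∉ Z₁ := fun h => hQS (by
      rw [hS, Multiset.mem_toFinset, Multiset.mem_add]; exact Or.inr h)
    have hQA : Q ∉ A := fun h => hQZ (by rw [hZeq, Multiset.mem_add]; exact Or.inr h)
    have hQA' : Q ∉ A' := fun h => hQZ₁ (by rw [hZ₁eq, Multiset.mem_add]; exact Or.inr h)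
    have h1 := hCZ Q hQZ
    have h2 := hC1 Q hQZ₁
    have hsZ : (Z.map fun P => β P Q).sum = j * β E Q + (A.map fun P => β P Q).sum := by
      rw [hZeq, Multiset.map_add, Multiset.sum_add, Multiset.map_replicate,
        Multiset.sum_replicate, nsmul_eq_mul]
    have hsZ₁ : (Z₁.map fun P => β P Q).sum =
        (A.map fun P => β P Q).sum + (A'.map fun P => β P Q).sum := by
      rw [hZ₁eq, Multiset.map_add, Multiset.sum_add]
    have hSA := mw17ge_sum_le hβ A Q hQA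
    have hSA' := mw17ge_sum_le hβ A' Q hQA'
    rw [hsZ, hcardZ] at h1
    rw [hsZ₁, hcardZ₁] at h2
    have h1' := abs_le.mp h1
    have h2' := abs_le.mp h2
    have hHQ := hH Q
    have hc0 := abs_nonneg c₀
    -- lower bound: `j (β + H) ≥ -CZ - |A| |c₀| - |A| H`
    have hlow : -(ε * H Q) - C0 ≤ β E Q + H Q := by
      have h3 : -(|CZ| + (c₁ : ℝ) * |c₀|) - ε * j * H Q ≤ j * (β E Q + H Q) := by
        have e1 : (A.card : ℝ) * |c₀| ≤ (c₁ : ℝ) * |c₀| := mul_le_mul_of_nonneg_right hAle hc0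
        have e2 : (A.card : ℝ) * H Q ≤ ε * j * H Q :=
          mul_le_mul_of_nonneg_right (hAle.trans hc₁) hHQ
        have e3 := le_abs_self CZ
        have e0 : ((j : ℝ) + A.card) * H Q = j * H Q + A.card * H Q := add_mul _ _ _
        have e00 : (j : ℝ) * (β E Q + H Q) = j * β E Q + j * H Q := mul_add _ _ _
        linarith [h1'.1]
      have e4 : (0 : ℝ) ≤ |C1| + (c₂ : ℝ) * |c₀| := by positivity
      have e5 : (j : ℝ) * (-(ε * H Q) - C0) =
          -(|CZ| + |C1| + ((c₁ : ℝ) + c₂) * |c₀|) - ε * j * H Q := by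
        rw [← hC0j]; ring
      have e6 : ((c₁ : ℝ) + c₂) * |c₀| = (c₁ : ℝ) * |c₀| + (c₂ : ℝ) * |c₀| := add_mul _ _ _
      refine le_of_mul_le_mul_left ?_ hjpos
      rw [e5]
      linarith
    -- upper bound
    have hupp : β E Q + H Q ≤ ε * H Q + C0 := by
      have h3 : j * (β E Q + H Q) ≤ (|CZ| + |C1| + (c₂ : ℝ) * |c₀|) + ε * j * H Q := by
        have e1 : (A'.card : ℝ) * |c₀| ≤ (c₂ : ℝ) * |c₀| := mul_le_mul_of_nonneg_right hA'le hc0
        have e2 : (A'.card : ℝ) * H Q ≤ ε * j * H Q :=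
          mul_le_mul_of_nonneg_right (hA'le.trans hc₂) hHQ
        have e3 := le_abs_self CZ
        have e4 := le_abs_self C1
        have e0 : ((j : ℝ) + A.card) * H Q = j * H Q + A.card * H Q := add_mul _ _ _
        have e01 : ((A.card : ℝ) + A'.card) * H Q = A.card * H Q + A'.card * H Q := add_mul _ _ _
        have e00 : (j : ℝ) * (β E Q + H Q) = j * β E Q + j * H Q := mul_add _ _ _
        linarith [h1'.2, h2'.1]
      have e5 : (0 : ℝ) ≤ (c₁ : ℝ) * |c₀| := by positivity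
      have e7 : (j : ℝ) * (ε * H Q + C0) =
          (|CZ| + |C1| + ((c₁ : ℝ) + c₂) * |c₀|) + ε * j * H Q := by
        rw [← hC0j]; ring
      have e6 : ((c₁ : ℝ) + c₂) * |c₀| = (c₁ : ℝ) * |c₀| + (c₂ : ℝ) * |c₀| := add_mul _ _ _
      refine le_of_mul_le_mul_left ?_ hjpos
      rw [e7]
      linarith
    rw [abs_le]
    constructor <;> linarith

end Fermat.Agent.MW17
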