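import Mathlib
import Fermat.Agent.MW17.InstZeros
import Fermat.Agent.MW17.Glob.EpsAbs

/-!
# Program MW (S17), heights half (A), leaf (EPS): existence on the table + assembly

Owner: helper9.  Namespace `Fermat.Agent.MW17`, prefix `mw17ge`.

* `mw17ge_exists_sec` (E2): for a multiset `A` of points of the table ring `B = V27pB T` and
  `m ≥ |A| + g`, `m ≥ δ.bound`, there is a nonzero section `u ∈ L_m` whose zero multiset contains `A`
  (pure linear algebra: `dim L_m = m + 1 - g > |A| = dim B ⧸ ∏_{q ∈ A} 𝔪_q`);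
* `mw17ge_star` : (GS-off) + (GS-P0) for a FIXED section give the star property of its zero multiset;
* `mw17ge_eps_of` (E3): (EPS) from (GS-off) for all `m₁ > 0`, (GS-P0), `β ≤ c₀`, `0 ≤ hP0`, with the
  global pairing `B`, the height `H0` and the height of coefficient vectors `ht` ABSTRACT functions
  (instantiate with helper22's `mw17gB T n t`, `mw17gH0 T n t (some ·)`, `htgHt`).
-/

set_option autoImplicit false
set_option linter.unusedSectionVars false

noncomputable section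

namespace Fermat.Agent.MW17

open Fermat.Agent.V Fermat.Agent.MW Module

variable {K : Type*} [Field K] {δ : V27pShape} (T : V27pTable K δ)
  [IsAlgClosed K] [IsDedekindDomain (V27pB T)]

/-- **(E2)** a nonzero section of `L_m` vanishing on the cycle `A`, as soon as `m ≥ |A| + g`. -/
theorem mw17ge_exists_sec (A : Multiset (Mw17Pt T)) (m : ℕ) (hm : δ.bound ≤ m)
    (hA : Multiset.card A + δ.genus ≤ m) :
    ∃ u : Mw17Idx δ m → K, u ≠ 0 ∧ ∃ Z : Multiset (Mw17Pt T),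
      Mw17IsZeros T (mw17Sec T m u) Z ∧ A ≤ Z ∧ Multiset.card Z ≤ m := by
  classical
  have hker : ∀ q ∈ A, RingHom.ker (q : V27pB T →+* K) ≠ ⊥ := fun q _ => mw17in_ker_ne_bot T q
  set I : Ideal (V27pB T) :=
    (A.map fun q : Mw17Pt T => RingHom.ker (q : V27pB T →+* K)).prod with hI
  have hI0 : I ≠ 0 := mwcr_prod_ker_ne_zero K (mw17in_hres T) A hker
  obtain ⟨hfin, hdim⟩ := mwcr_finrank_eq_card_zeros K (mw17in_hres T) I hI0
  rw [hI, mwcrZeros_prod_ker K (mw17in_hres T) A hker, ← hI] at hdim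
  -- the restriction of the quotient map to `L_m` is not injective
  let f : v27pL T m →ₗ[K] (V27pB T ⧸ I) :=
    ((Ideal.Quotient.mkₐ K I).toLinearMap).comp (v27pL T m).subtype
  have hL := v27p_finrank_L T m hm
  have hnotinj : ¬ Function.Injective f := by
    intro hinj
    have := LinearMap.finrank_le_finrank_of_injective hinj
    omega
  obtain ⟨b, hb0, hbI⟩ : ∃ b : v27pL T m, b ≠ 0 ∧ f b = 0 := by
    by_contra hcon
    push Not at hcon
    apply hnotinj
    rw [← LinearMap.ker_eq_bot, LinearMap.ker_eq_bot']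
    intro b hb
    by_contra hb0
    exact hcon b hb0 hb
  have hb0' : (b : V27pB T) ≠ 0 := fun h => hb0 (Subtype.ext h)
  have hbI' : (b : V27pB T) ∈ I := by
    have : Ideal.Quotient.mk I (b : V27pB T) = 0 := hbI
    exact Ideal.Quotient.eq_zero_iff_mem.mp this
  obtain ⟨u, hu⟩ := mw17in_exists_sec T (m := m) (b := (b : V27pB T)) b.2
  have hu0 : u ≠ 0 := by
    rintro rfl
    apply hb0'
    rw [← hu, (mw17in_sec_eq_zero_iff T m 0).mpr rfl]
  refine ⟨u, hu0, mw17inZeros T (mw17Sec T m u), mw17in_isZeros T (by rw [hu]; exact hb0'), ?_, ?_⟩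
  · rw [hu, mw17inZeros]
    have hsr : Ideal.span {(b : V27pB T)} ≠ 0 := Submodule.span_singleton_eq_bot.mp.mt hb0'
    rw [← mwcr_prod_ker_le_iff K (mw17in_hres T) hsr A hker, Ideal.span_singleton_le_iff_mem]
    exact hbI'
  · rw [mw17in_card_zeros T (by rw [hu]; exact hb0'), hu]
    exact mem_v27pL_iff_ord.mp b.2

variable {T}

/-- (GS-off) for ONE section + (GS-P0) ⟹ the star property of its zero multiset. -/
theorem mw17ge_star (n m₁ : ℕ) (B : Option (Mw17Pt T) → Option (Mw17Pt T) → ℝ)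
    (H0 hpsi : Mw17Pt T → ℝ) (hpsiH : ∀ R, hpsi R = n * H0 R) (htu : ℝ)
    (u : Mw17Idx δ (n * m₁) → K) (hu : u ≠ 0) (Z : Multiset (Mw17Pt T))
    (hZ : Mw17IsZeros T (mw17Sec T (n * m₁) u) Z) (C C0 : ℝ)
    (hP0 : ∀ R : Mw17Pt T, |B none (some R) + H0 R| ≤ C0)
    (hoff : ∀ R : Mw17Pt T, R (mw17Sec T (n * m₁) u) ≠ 0 →
      |(Z.map fun P : Mw17Pt T => B (some P) (some R)).sum +
        ((n * m₁ - Multiset.card Z : ℕ) : ℝ) * B none (some R) + htu + m₁ * hpsi R| ≤ C) :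
    Mw17geStar (fun P R : Mw17Pt T => B (some P) (some R)) H0 Z := by
  have hsec : mw17Sec T (n * m₁) u ≠ 0 := fun h => hu ((mw17in_sec_eq_zero_iff T _ u).mp h)
  have hcard : Multiset.card Z ≤ n * m₁ := by
    rw [hZ.1]; exact mw17in_ord_sec_le T _ u
  refine ⟨C + ((n * m₁ - Multiset.card Z : ℕ) : ℝ) * C0 + |htu|, fun R hR => ?_⟩
  have hR' : R (mw17Sec T (n * m₁) u) ≠ 0 := fun h => hR ((hZ.mem_iff T hsec R).mpr h)
  have h1 := abs_le.mp (hoff R hR')
  have h2 := abs_le.mp (hP0 R)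
  have h3 := abs_le.mp (le_refl |htu|)
  have hk : (0 : ℝ) ≤ ((n * m₁ - Multiset.card Z : ℕ) : ℝ) := Nat.cast_nonneg _
  have hcast : ((n * m₁ - Multiset.card Z : ℕ) : ℝ) = (n : ℝ) * m₁ - Multiset.card Z := by
    rw [Nat.cast_sub hcard]; push_cast; ring
  rw [hpsiH] at h1
  set k : ℝ := ((n * m₁ - Multiset.card Z : ℕ) : ℝ) with hkdef
  set S : ℝ := (Z.map fun P : Mw17Pt T => B (some P) (some R)).sum with hS
  have e1 : k * (B none (some R) + H0 R) ≤ k * C0 := mul_le_mul_of_nonneg_left h2.2 hk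
  have e2 : k * (-C0) ≤ k * (B none (some R) + H0 R) := mul_le_mul_of_nonneg_left h2.1 hk
  have e3 : S + (Multiset.card Z : ℝ) * H0 R =
      (S + k * B none (some R) + htu + m₁ * (n * H0 R)) - k * (B none (some R) + H0 R) - htu := by
    rw [hcast]; ring
  rw [abs_le]
  constructor
  · rw [e3]; linarith [h1.1]
  · rw [e3]; linarith [h1.2]

/-- **(E3)  (EPS)** from (GS-off) at all levels, (GS-P0), `β ≤ c₀` and `0 ≤ hP0`; the global pairing
`B`, the height `H0 = hP0`, `hpsi = htgHt (ψ_n ·)` and the height `ht` of coefficient vectors are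
abstract. -/
theorem mw17ge_eps_of (n : ℕ) (hn : 0 < n) (B : Option (Mw17Pt T) → Option (Mw17Pt T) → ℝ)
    (H0 hpsi : Mw17Pt T → ℝ) (hpsiH : ∀ R, hpsi R = n * H0 R)
    (ht : ∀ m₁ : ℕ, (Mw17Idx δ (n * m₁) → K) → ℝ)
    (hH0 : ∀ R, 0 ≤ H0 R) {c₀ : ℝ} (hB : ∀ P R : Mw17Pt T, P ≠ R → B (some P) (some R) ≤ c₀)
    (hP0 : ∃ C0 : ℝ, ∀ R : Mw17Pt T, |B none (some R) + H0 R| ≤ C0)
    (hoff : ∀ m₁ : ℕ, 0 < m₁ → ∃ C : ℝ, ∀ u : Mw17Idx δ (n * m₁) → K, u ≠ 0 →
      ∀ Z : Multiset (Mw17Pt T), Mw17IsZeros T (mw17Sec T (n * m₁) u) Z →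
      ∀ R : Mw17Pt T, R (mw17Sec T (n * m₁) u) ≠ 0 →
      |(Z.map fun P : Mw17Pt T => B (some P) (some R)).sum +
        ((n * m₁ - Multiset.card Z : ℕ) : ℝ) * B none (some R) + ht m₁ u + m₁ * hpsi R| ≤ C)
    (E : Mw17Pt T) (ε : ℝ) (hε : 0 < ε) :
    ∃ C : ℝ, ∀ Q : Mw17Pt T, Q ≠ E → |B (some E) (some Q) + H0 Q| ≤ ε * H0 Q + C := by
  classical
  obtain ⟨C0, hC0⟩ := hP0
  -- (X0): every cycle can be completed to a star cycle by boundedly many points
  have hX0 : ∀ A : Multiset (Mw17Pt T), ∃ A' : Multiset (Mw17Pt T),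
      Mw17geStar (fun P R : Mw17Pt T => B (some P) (some R)) H0 (A + A') ∧
        Multiset.card A' ≤ δ.genus + δ.bound + n := by
    intro A
    set x : ℕ := Multiset.card A + δ.genus + δ.bound with hx
    set m₁ : ℕ := x / n + 1 with hm₁
    have hlo : x < n * m₁ := by
      rw [hm₁, Nat.mul_add, Nat.mul_one]
      exact Nat.lt_div_mul_add hn |>.trans_eq (by rw [Nat.mul_comm])
    have hhi : n * m₁ ≤ x + n := by
      rw [hm₁, Nat.mul_add, Nat.mul_one]
      exact Nat.add_le_add_right (Nat.mul_div_le x n) n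
    obtain ⟨u, hu, Z, hZ, hAZ, hZcard⟩ :=
      mw17ge_exists_sec T A (n * m₁) (by omega) (by omega)
    obtain ⟨C, hC⟩ := hoff m₁ (by rw [hm₁]; exact Nat.succ_pos _)
    refine ⟨Z - A, ?_, ?_⟩
    · rw [add_tsub_cancel_of_le hAZ]
      exact mw17ge_star n m₁ B H0 hpsi hpsiH (ht m₁ u) u hu Z hZ C C0 hC0 (hC u hu Z hZ)
    · rw [Multiset.card_sub hAZ]
      omega
  exact mw17ge_eps_abs hH0 hB (δ.genus + δ.bound + n) (δ.genus + δ.bound + n)
    (fun E j => hX0 (Multiset.replicate j E)) (fun _ _ A _ => hX0 A) E ε hε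

end Fermat.Agent.MW17
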