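import Mathlib
import Fermat.Agent.MW17.Glob.Defs
import Fermat.Agent.MW17.Glob.EpsTable

/-!
# Program MW (S17), heights half (A), leaf (EPS): the global statement

Owner: helper9.  Namespace `Fermat.Agent.MW17`, prefix `mw17ge`.

`mw17ge_main : (∀ m₁, Mw17StarOffGlob T n t m₁) → Mw17P0Glob T n t → Mw17Eps T n t`
in helper22's literals (`MW17/Glob/Defs.lean`), for `n ≠ 0`, `δ.N ≤ n`, `δ.d j ≤ n` (the hypotheses of
helper22's `mw17gB_le_of_ne`).  Everything is in `MW17/Glob/EpsAbs.lean` (abstract ε-argument) and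
`MW17/Glob/EpsTable.lean` (sections through a given cycle by linear algebra + assembly).
-/

set_option autoImplicit false

namespace Fermat.Agent.MW17

open Fermat.Agent.V Fermat.Agent.HT

variable {δ : V27pShape} (T : V27pTable HtgQb δ) [IsDedekindDomain (V27pB T)]

/-- **(EPS)**: `β(E,Q) = −hP0(Q) + O(ε hP0(Q)) + O_ε(1)` for `Q ≠ E`; only the levels `m₁ > 0` of
(GS-off) are used. -/
theorem mw17ge_main_pos (n : ℕ) (hn : n ≠ 0) (hN : δ.N ≤ n) (hd : ∀ j, δ.d j ≤ n)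
    (t : Mw17Idx δ n) (hoff : ∀ m₁ : ℕ, 0 < m₁ → Mw17StarOffGlob T n t m₁)
    (hP0 : Mw17P0Glob T n t) : Mw17Eps T n t := by
  intro E ε hε
  exact mw17ge_eps_of (T := T) n (Nat.pos_of_ne_zero hn) (mw17gB T n t)
    (fun R => mw17gH0 T n t (some R)) (fun R => htgHt (mw17Psi T n R))
    (fun R => mw17g_ht_eq_mul_H0 T n hn t (some R)) (fun _ u => htgHt u)
    (fun R => mw17gH0_nonneg T n t (some R)) (fun P R h => mw17gB_le_of_ne T n hN hd t h)
    hP0 hoff E ε hε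

/-- **(EPS)**, the architect's literal. -/
theorem mw17ge_main (n : ℕ) (hn : n ≠ 0) (hN : δ.N ≤ n) (hd : ∀ j, δ.d j ≤ n) (t : Mw17Idx δ n)
    (hoff : ∀ m₁ : ℕ, Mw17StarOffGlob T n t m₁) (hP0 : Mw17P0Glob T n t) : Mw17Eps T n t :=
  mw17ge_main_pos T n hn hN hd t (fun m₁ _ => hoff m₁) hP0

/-- (EPS) from the local statements through helper22's (GS-P0). -/
theorem mw17ge_main' (n : ℕ) (hn : n ≠ 0) (hN : δ.N ≤ n) (hd : ∀ j, δ.d j ≤ n) (t : Mw17Idx δ n)
    (hoff : ∀ m₁ : ℕ, Mw17StarOffGlob T n t m₁) (hP0 : Mw17P0Loc T n t) : Mw17Eps T n t :=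
  mw17ge_main T n hn hN hd t hoff (mw17g_p0Glob T n hn t hP0)

end Fermat.Agent.MW17
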