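import Mathlib
import Fermat.Agent.MW17.NorthcottPts
import Fermat.Agent.HT.Glob.Sum

/-!
# Program MW (S17), heights half (A): Northcott for the points of the presented curve, `htgHt` form

Owner: helper3.  Namespace `Fermat.Agent.MW17`, prefix `mw17gn`.

The concrete form (places `htgAbs`, height `htgHt` of `HT/Glob/Sum.lean`) of
`MW17/NorthcottPts.lean` :

* `mw17gn_finite` : finitely many `R : Mw17Pt T` with coordinates `x(R), e_j(R)` of degree `≤ d` and
  `htgHt (ψ_n R) ≤ B`;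
* `mw17gn_finite'` : the same with the degree bound on all monomial values (blueprint literal);
* `mw17gnHp T n`, `mw17gnHp_nonneg`, `mw17gn_HN` : the height of a coordinate point
  `htgHt (ψ_n q) / n` and its Northcott property, in the shape of the inputs `hp`, `hp0`, `HN` of
  `MW17/Main.lean`.
-/

set_option autoImplicit false
set_option linter.unusedSectionVars false
set_option linter.unusedVariables false

noncomputable section

namespace Fermat.Agent.MW17

open Fermat.Agent.V Fermat.Agent.HT Polynomial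

variable {δ : V27pShape} (T : V27pTable HtgQb δ)

theorem mw17gn_hext (p : Nat.Primes) (m : ℤ) :
    htgAbs (some p) (m : HtgQb) = ((padicNorm (p : ℕ) (m : ℚ) : ℚ) : ℝ) := by
  have h := htgAbs_ratCast_some p (m : ℚ)
  rwa [eq_ratCast, Rat.cast_intCast] at h

/-- **Northcott for the finite points of the presented curve** (`htgHt` form). -/
theorem mw17gn_finite (n : ℕ) (hn : δ.N ≤ n) (hd : ∀ j, δ.d j ≤ n) (d : ℕ) (B : ℝ) :
    {R : Mw17Pt T | (∀ o : V27coP δ, (minpoly ℚ (v27cbPt T R o)).natDegree ≤ d) ∧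
      htgHt (mw17Psi T n R) ≤ B}.Finite :=
  mw17np_finite T htgAbs htgEmbC.toRingHom htgSys (fun _ => rfl) htgAbs_nonarch mw17gn_hext
    n hn hd d B

/-- blueprint literal : degree bound on all the monomial values. -/
theorem mw17gn_finite' (n : ℕ) (hn : δ.N ≤ n) (hd : ∀ j, δ.d j ≤ n) (d : ℕ) (B : ℝ) :
    {R : Mw17Pt T | (∀ i, (minpoly ℚ (mw17Psi T n R i)).natDegree ≤ d) ∧
      htgHt (mw17Psi T n R) ≤ B}.Finite := by
  refine (mw17gn_finite T n hn hd d B).subset ?_
  rintro R ⟨hRd, hRB⟩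
  refine ⟨fun o => ?_, hRB⟩
  rw [← mw17np_psi_idx T n hn hd R o]
  exact hRd _

/-- the height of a finite point : `htgHt (ψ_n q) / n` (`= hP0`; the `hp` of `MW17/MainPt.lean`). -/
def mw17gnHpt (n : ℕ) (q : Mw17Pt T) : ℝ := htgHt (mw17Psi T n q) / n

theorem mw17gnHpt_nonneg (n : ℕ) (q : Mw17Pt T) : 0 ≤ mw17gnHpt T n q :=
  div_nonneg (htgHt_nonneg_of_one _ (mw17IdxZero δ n) (mw17Psi_zero T n q)) (Nat.cast_nonneg n)

/-- **(HN)** in the language of finite points `Mw17Pt T`. -/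
theorem mw17gn_HN_pt (n : ℕ) (hn : δ.N ≤ n) (hd : ∀ j, δ.d j ≤ n) (d : ℕ) (B : ℝ) :
    {q : Mw17Pt T | (∀ o : V27coP δ, (minpoly ℚ (v27cbPt T q o)).natDegree ≤ d) ∧
      mw17gnHpt T n q ≤ B}.Finite := by
  have hn0 : (0 : ℝ) < n := by
    have := δ.hN
    exact_mod_cast lt_of_lt_of_le this hn
  refine (mw17gn_finite T n hn hd d (B * n)).subset ?_
  rintro q ⟨hqd, hqB⟩
  refine ⟨hqd, ?_⟩
  rw [mw17gnHpt, div_le_iff₀ hn0] at hqB
  exact hqB

open scoped Classical in
/-- the height of a coordinate point : `htgHt (ψ_n q) / n` (and `0` off the curve). -/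
def mw17gnHp (n : ℕ) (q : V27coP δ → HtgQb) : ℝ :=
  if hq : V27coPt T.c q then htgHt (mw17Psi T n (v27cbHom T q hq)) / n else 0

theorem mw17gnHp_of_pt (n : ℕ) (q : V27coP δ → HtgQb) (hq : V27coPt T.c q) :
    mw17gnHp T n q = htgHt (mw17Psi T n (v27cbHom T q hq)) / n := by
  rw [mw17gnHp, dif_pos hq]

theorem mw17gnHp_nonneg (n : ℕ) (q : V27coP δ → HtgQb) : 0 ≤ mw17gnHp T n q := by
  classical
  rw [mw17gnHp]
  split_ifs with hq
  · exact div_nonneg (htgHt_nonneg_of_one _ (mw17IdxZero δ n) (mw17Psi_zero T n _))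
      (Nat.cast_nonneg n)
  · exact le_rfl

/-- **(HN)** : Northcott in bounded degree for `mw17gnHp`. -/
theorem mw17gn_HN (n : ℕ) (hn : δ.N ≤ n) (hd : ∀ j, δ.d j ≤ n) (d : ℕ) (B : ℝ) :
    {q : V27coP δ → HtgQb | V27coPt T.c q ∧ (∀ o, (minpoly ℚ (q o)).natDegree ≤ d) ∧
      mw17gnHp T n q ≤ B}.Finite := by
  have hn0 : (0 : ℝ) < n := by
    have := δ.hN
    exact_mod_cast lt_of_lt_of_le this hn
  have h := mw17np_finite_coord T htgAbs htgEmbC.toRingHom htgSys (fun _ => rfl) htgAbs_nonarch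
    mw17gn_hext n hn hd d (B * n)
  refine h.subset ?_
  rintro q ⟨hq, hqd, hqB⟩
  refine ⟨hq, hqd, ?_⟩
  rw [mw17gnHp_of_pt T n q hq, div_le_iff₀ hn0] at hqB
  exact hqB

end Fermat.Agent.MW17
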