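import Fermat.Agent.MW17.Pair.Frac
import Fermat.Agent.MW17.InstZeros

/-!
# Program MW (S17), §6/§7: (PRINC) from (★-off, global)

Owner: helper15.  Prefix `mw17gp`.

Input: the global two-sided estimate (GS-off) in the literal shape of helper16's
`Mw17StarOffGlob` (abstract here in the pairing `b`, the height of sections `Hu` and the height of
points `Hφ`):

  `∀ m₁, ∃ C, ∀ u ≠ 0, ∀ Z, Mw17IsZeros T (sec u) Z → ∀ r, r (sec u) ≠ 0 →`
  `  |Σ_{p ∈ Z} b (some p) r + (n m₁ - |Z|) b none r + Hu m₁ u + m₁ Hφ r| ≤ C`.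

Output: the field `princ` of helper1's `Mw17paHyp b (mw17prCl P)`, and the whole structure
(`mw17gp_hyp`), hence the parallelogram law on `Pic0`.
-/

set_option autoImplicit false
set_option linter.unusedSectionVars false
set_option linter.style.haveILetI false

noncomputable section

namespace Fermat.Agent.MW17

open AlgebraicCurve Fermat.Agent.V Fermat.Agent.V.RR

/-! ### bookkeeping: column sums -/

section abstract

variable {Pt : Type*} (b : Option Pt → Pt → ℝ)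

/-- the column sum `Σ_o A(o) b(o, r)`. -/
def mw17gpCol (A : Option Pt →₀ ℤ) (r : Pt) : ℝ := A.sum fun o a => (a : ℝ) * b o r

theorem mw17gpCol_add (A A' : Option Pt →₀ ℤ) (r : Pt) :
    mw17gpCol b (A + A') r = mw17gpCol b A r + mw17gpCol b A' r := by
  unfold mw17gpCol
  exact Finsupp.sum_add_index' (fun _ => by simp) (fun _ _ _ => by push_cast; ring)

theorem mw17gpCol_neg (A : Option Pt →₀ ℤ) (r : Pt) :
    mw17gpCol b (-A) r = - mw17gpCol b A r := by
  unfold mw17gpCol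
  rw [Finsupp.sum_neg_index (fun _ => by simp), ← Finsupp.sum_neg]
  exact Finsupp.sum_congr fun _ _ => by push_cast; ring

theorem mw17gpCol_sub (A A' : Option Pt →₀ ℤ) (r : Pt) :
    mw17gpCol b (A - A') r = mw17gpCol b A r - mw17gpCol b A' r := by
  rw [sub_eq_add_neg, mw17gpCol_add, mw17gpCol_neg, ← sub_eq_add_neg]

theorem mw17gpCol_zero (r : Pt) : mw17gpCol b 0 r = 0 := by
  simp [mw17gpCol]

theorem mw17gpCol_single (o : Option Pt) (a : ℤ) (r : Pt) :
    mw17gpCol b (Finsupp.single o a) r = (a : ℝ) * b o r := by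
  unfold mw17gpCol
  rw [Finsupp.sum_single_index (by simp)]

theorem mw17gpCol_zsmul (k : ℤ) (A : Option Pt →₀ ℤ) (r : Pt) :
    mw17gpCol b (k • A) r = (k : ℝ) * mw17gpCol b A r := by
  unfold mw17gpCol
  rw [Finsupp.sum_smul_index (fun _ => by simp), Finsupp.mul_sum]
  exact Finsupp.sum_congr fun _ _ => by push_cast; ring

/-- `B(A, W) = Σ_r W(r) · col_A(r)`. -/
theorem mw17gp_B_eq (A : Option Pt →₀ ℤ) (W : Pt →₀ ℤ) :
    mw17paB b A W = W.sum fun r c => (c : ℝ) * mw17gpCol b A r := by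
  unfold mw17paB mw17paRow mw17gpCol
  simp only [Finsupp.mul_sum]
  rw [Finsupp.sum_comm]
  exact Finsupp.sum_congr fun r _ => Finsupp.sum_congr fun o _ => by ring

/-- the formal sum of a multiset of finite points, completed to degree zero by `-|Z| · P0`. -/
def mw17gpOf (Z : Multiset Pt) : Option Pt →₀ ℤ :=
  (Z.map fun p => Finsupp.single (some p) (1 : ℤ)).sum - (Multiset.card Z : ℤ) • Finsupp.single none 1

theorem mw17gpCol_of (Z : Multiset Pt) (r : Pt) :
    mw17gpCol b (mw17gpOf Z) r =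
      (Z.map fun p => b (some p) r).sum - (Multiset.card Z : ℝ) * b none r := by
  unfold mw17gpOf
  rw [mw17gpCol_sub, mw17gpCol_zsmul, mw17gpCol_single]
  congr 1
  · induction Z using Multiset.induction_on with
    | empty => simp [mw17gpCol_zero]
    | cons p Z ih =>
      rw [Multiset.map_cons, Multiset.sum_cons, mw17gpCol_add, ih, mw17gpCol_single,
        Multiset.map_cons, Multiset.sum_cons]
      simp
  · push_cast
    ring

theorem mw17gpOf_some [DecidableEq Pt] (Z : Multiset Pt) (q : Pt) :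
    mw17gpOf Z (some q) = (Multiset.count q Z : ℤ) := by
  unfold mw17gpOf
  rw [Finsupp.sub_apply, Finsupp.smul_apply, Finsupp.single_eq_of_ne (by simp), smul_zero,
    sub_zero]
  induction Z using Multiset.induction_on with
  | empty => simp
  | cons p Z ih =>
    rw [Multiset.map_cons, Multiset.sum_cons, Finsupp.add_apply, ih, Multiset.count_cons]
    by_cases h : q = p
    · subst h
      simp
      ring
    · rw [Finsupp.single_eq_of_ne (by simpa using h), if_neg h]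
      simp

theorem mw17gpOf_none (Z : Multiset Pt) : mw17gpOf Z none = -(Multiset.card Z : ℤ) := by
  unfold mw17gpOf
  rw [Finsupp.sub_apply, Finsupp.smul_apply, Finsupp.single_eq_same]
  have : ((Z.map fun p => Finsupp.single (some p) (1 : ℤ)).sum : Option Pt →₀ ℤ) none = 0 := by
    induction Z using Multiset.induction_on with
    | empty => simp
    | cons p Z ih =>
      rw [Multiset.map_cons, Multiset.sum_cons, Finsupp.add_apply, ih,
        Finsupp.single_eq_of_ne (by simp)]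
      simp
  rw [this]
  simp

theorem mw17paDeg_gpOf (Z : Multiset Pt) : mw17paDeg (mw17gpOf Z) = 0 := by
  unfold mw17gpOf
  rw [map_sub, map_zsmul, mw17paDeg_single, map_multiset_sum, Multiset.map_map]
  have : (Z.map ((mw17paDeg : (Option Pt →₀ ℤ) →+ ℤ) ∘ fun p => Finsupp.single (some p) (1 : ℤ))) =
      Z.map fun _ => (1 : ℤ) := by
    refine Multiset.map_congr rfl fun p _ => ?_
    exact mw17paDeg_single _ _
  rw [this, Multiset.map_const', Multiset.sum_replicate]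
  simp

/-- a degree zero formal sum vanishing at all finite points is zero. -/
theorem mw17gp_eq_of_some {A A' : Option Pt →₀ ℤ} (hA : mw17paDeg A = 0) (hA' : mw17paDeg A' = 0)
    (h : ∀ q, A (some q) = A' (some q)) : A = A' := by
  classical
  have hD : A - A' = Finsupp.single none ((A - A') none) := by
    ext o
    cases o with
    | none => simp
    | some q => simp [h q]
  have hdeg : mw17paDeg (A - A') = 0 := by rw [map_sub, hA, hA', sub_zero]
  rw [hD, mw17paDeg_single] at hdeg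
  rw [hdeg, Finsupp.single_zero] at hD
  exact sub_eq_zero.mp hD

end abstract

/-! ### on the presented curve -/

variable {K F : Type*} [Field K] [Field F] [Algebra K F] {δ : V27pShape} {T : V27pTable K δ}
  [IsDedekindDomain (V27pB T)] (P : V27Presented K F T) [IsAlgClosed K]

theorem mw17paDeg_pfOrd {g : ℕ} (R : V27RR K F g) (b : V27pB T) :
    mw17paDeg (mw17pfOrd P R b) = 0 := by
  unfold mw17pfOrd
  split_ifs with hb
  · simp
  · rw [← mw17pr_degree_div P, AddEquiv.apply_symm_apply]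
    exact (Classical.choose_spec (R.hasDiv.exists_divisor (P.ψ b) (P.ψ_ne_zero hb))).2

/-- **the divisor of `ψ b` is the zero cycle of `b` completed by `-|Z| · P0`.** -/
theorem mw17gp_ord_eq_of {g : ℕ} (R : V27RR K F g) {b : V27pB T} (hb : b ≠ 0)
    {Z : Multiset (Mw17Pt T)} (hZ : Mw17IsZeros T b Z) : mw17pfOrd P R b = mw17gpOf Z := by
  classical
  refine mw17gp_eq_of_some (mw17paDeg_pfOrd P R b) (mw17paDeg_gpOf Z) fun q => ?_
  rw [mw17pfOrd_apply P R hb, mw17gpOf_some]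
  letI := v27spAlg P
  haveI := v27sp_isScalarTower P
  haveI := v27sp_isFractionRing P
  exact (hZ.count_eq_ord T F hb q).symm

/-- **(PRINC), raw form `hG`, from (★-off, global).** -/
theorem mw17gp_hG {g : ℕ} (R : V27RR K F g) (n : ℕ) (hn : 1 ≤ n)
    (b : Option (Mw17Pt T) → Mw17Pt T → ℝ)
    (Hu : ∀ m₁ : ℕ, (Mw17Idx δ (n * m₁) → K) → ℝ) (Hφ : Mw17Pt T → ℝ)
    (hoff : ∀ m₁ : ℕ, ∃ C : ℝ, ∀ u : Mw17Idx δ (n * m₁) → K, u ≠ 0 →
      ∀ Z : Multiset (Mw17Pt T), Mw17IsZeros T (mw17Sec T (n * m₁) u) Z →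
      ∀ r : Mw17Pt T, r (mw17Sec T (n * m₁) u) ≠ 0 →
      |(Z.map fun p => b (some p) r).sum + ((n * m₁ - Multiset.card Z : ℕ) : ℝ) * b none r
        + Hu m₁ u + (m₁ : ℝ) * Hφ r| ≤ C) :
    ∀ m s : ℕ, ∃ C : ℝ, ∀ b₁ b₂ : V27pB T, b₁ ≠ 0 → b₂ ≠ 0 → V27pLe b₁ m → V27pLe b₂ m →
      ∀ W : Mw17Pt T →₀ ℤ, mw17paDeg W = 0 → mw17paSize W ≤ s →
      (∀ r ∈ W.support, r b₁ ≠ 0 ∧ r b₂ ≠ 0) →
      |mw17paB b (mw17pfOrd P R b₁ - mw17pfOrd P R b₂) W| ≤ C := by
  intro m s
  obtain ⟨C, hC⟩ := hoff m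
  refine ⟨2 * |C| * s, fun b₁ b₂ hb1 hb2 hL1 hL2 W hW hsz hoffW => ?_⟩
  have hm : m ≤ n * m := Nat.le_mul_of_pos_left m hn
  obtain ⟨u₁, hu1⟩ := mw17in_exists_sec T (hL1.mono hm)
  obtain ⟨u₂, hu2⟩ := mw17in_exists_sec T (hL2.mono hm)
  have hu10 : u₁ ≠ 0 := fun h => hb1 (by rw [← hu1, (mw17in_sec_eq_zero_iff T _ _).mpr h])
  have hu20 : u₂ ≠ 0 := fun h => hb2 (by rw [← hu2, (mw17in_sec_eq_zero_iff T _ _).mpr h])
  have hZ1 := mw17in_isZeros T hb1
  have hZ2 := mw17in_isZeros T hb2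
  set Z₁ := mw17inZeros T b₁ with hZ1def
  set Z₂ := mw17inZeros T b₂ with hZ2def
  have hc1 : Multiset.card Z₁ ≤ n * m := by
    rw [hZ1.1]; exact (v27pOrd_le_iff _ _).mpr (hL1.mono hm)
  have hc2 : Multiset.card Z₂ ≤ n * m := by
    rw [hZ2.1]; exact (v27pOrd_le_iff _ _).mpr (hL2.mono hm)
  -- the two error terms
  set e₁ : Mw17Pt T → ℝ := fun r =>
    (Z₁.map fun p => b (some p) r).sum + ((n * m - Multiset.card Z₁ : ℕ) : ℝ) * b none r
      + Hu m u₁ + (m : ℝ) * Hφ r with he1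
  set e₂ : Mw17Pt T → ℝ := fun r =>
    (Z₂.map fun p => b (some p) r).sum + ((n * m - Multiset.card Z₂ : ℕ) : ℝ) * b none r
      + Hu m u₂ + (m : ℝ) * Hφ r with he2
  have hb1e : ∀ r ∈ W.support, |e₁ r| ≤ C := fun r hr =>
    hC u₁ hu10 Z₁ (by rw [hu1]; exact hZ1) r (by rw [hu1]; exact (hoffW r hr).1)
  have hb2e : ∀ r ∈ W.support, |e₂ r| ≤ C := fun r hr =>
    hC u₂ hu20 Z₂ (by rw [hu2]; exact hZ2) r (by rw [hu2]; exact (hoffW r hr).2)
  -- the column identity
  have hcol : ∀ r, mw17gpCol b (mw17pfOrd P R b₁ - mw17pfOrd P R b₂) r =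
      e₁ r - e₂ r - (Hu m u₁ - Hu m u₂) := by
    intro r
    rw [mw17gpCol_sub, mw17gp_ord_eq_of P R hb1 hZ1, mw17gp_ord_eq_of P R hb2 hZ2,
      mw17gpCol_of, mw17gpCol_of, he1, he2]
    simp only
    rw [Nat.cast_sub hc1, Nat.cast_sub hc2]
    ring
  rw [mw17gp_B_eq]
  have hsum : (W.sum fun r c => (c : ℝ) *
      mw17gpCol b (mw17pfOrd P R b₁ - mw17pfOrd P R b₂) r) =
      ∑ r ∈ W.support, (W r : ℝ) * (e₁ r - e₂ r) := by
    unfold Finsupp.sum
    have h1 : ∀ r ∈ W.support, (W r : ℝ) *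
        mw17gpCol b (mw17pfOrd P R b₁ - mw17pfOrd P R b₂) r =
        (W r : ℝ) * (e₁ r - e₂ r) - (W r : ℝ) * (Hu m u₁ - Hu m u₂) := fun r _ => by
      rw [hcol r]; ring
    rw [Finset.sum_congr rfl h1, Finset.sum_sub_distrib, ← Finset.sum_mul]
    have h0 : ∑ r ∈ W.support, (W r : ℝ) = 0 := by
      have := hW
      rw [mw17paDeg_apply] at this
      unfold Finsupp.sum at this
      exact_mod_cast this
    rw [h0, zero_mul, sub_zero]
  rw [hsum]
  calc |∑ r ∈ W.support, (W r : ℝ) * (e₁ r - e₂ r)|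
      ≤ ∑ r ∈ W.support, |(W r : ℝ) * (e₁ r - e₂ r)| := Finset.abs_sum_le_sum_abs _ _
    _ ≤ ∑ r ∈ W.support, ((W r).natAbs : ℝ) * (2 * |C|) := by
        refine Finset.sum_le_sum fun r hr => ?_
        rw [abs_mul]
        have h1 : |(W r : ℝ)| = ((W r).natAbs : ℝ) := by
          rw [← Int.cast_abs, Int.abs_eq_natAbs]
          simp
        have h2 : |e₁ r - e₂ r| ≤ 2 * |C| := by
          have a1 := hb1e r hr
          have a2 := hb2e r hr
          have a3 := le_abs_self C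
          calc |e₁ r - e₂ r| ≤ |e₁ r| + |e₂ r| := abs_sub _ _
            _ ≤ 2 * |C| := by linarith
        rw [h1]
        exact mul_le_mul_of_nonneg_left h2 (Nat.cast_nonneg _)
    _ = (mw17paSize W : ℝ) * (2 * |C|) := by
        rw [← Finset.sum_mul]
        congr 1
        unfold mw17paSize Finsupp.sum
        push_cast
        rfl
    _ ≤ 2 * |C| * s := by
        have h1 : (mw17paSize W : ℝ) ≤ s := by exact_mod_cast hsz
        have h2 : 0 ≤ 2 * |C| := by positivity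
        nlinarith

/-- **helper1's `Mw17paHyp` on the presented curve from (★-off, global) + symmetry.** -/
theorem mw17gp_hyp {g : ℕ} (R : V27RR K F g) (n : ℕ) (hn : 1 ≤ n)
    (b : Option (Mw17Pt T) → Mw17Pt T → ℝ) (hsymm : ∀ p q, b (some p) q = b (some q) p)
    (Hu : ∀ m₁ : ℕ, (Mw17Idx δ (n * m₁) → K) → ℝ) (Hφ : Mw17Pt T → ℝ)
    (hoff : ∀ m₁ : ℕ, ∃ C : ℝ, ∀ u : Mw17Idx δ (n * m₁) → K, u ≠ 0 →
      ∀ Z : Multiset (Mw17Pt T), Mw17IsZeros T (mw17Sec T (n * m₁) u) Z →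
      ∀ r : Mw17Pt T, r (mw17Sec T (n * m₁) u) ≠ 0 →
      |(Z.map fun p => b (some p) r).sum + ((n * m₁ - Multiset.card Z : ℕ) : ℝ) * b none r
        + Hu m₁ u + (m₁ : ℝ) * Hφ r| ≤ C) :
    Mw17paHyp b (mw17prCl P) :=
  mw17pf_hyp P R b hsymm (mw17gp_hG P R n hn b Hu Hφ hoff)

/-- **§7 output on the presented curve**: a height on `Pic0 K F` with the parallelogram law up to
a constant, computed by `B` on disjoint representatives (helper1's `mw17pa_main`). -/
theorem mw17gp_main {g : ℕ} (R : V27RR K F g) (n : ℕ) (hn : 1 ≤ n)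
    (b : Option (Mw17Pt T) → Mw17Pt T → ℝ) (hsymm : ∀ p q, b (some p) q = b (some q) p)
    (Hu : ∀ m₁ : ℕ, (Mw17Idx δ (n * m₁) → K) → ℝ) (Hφ : Mw17Pt T → ℝ)
    (hoff : ∀ m₁ : ℕ, ∃ C : ℝ, ∀ u : Mw17Idx δ (n * m₁) → K, u ≠ 0 →
      ∀ Z : Multiset (Mw17Pt T), Mw17IsZeros T (mw17Sec T (n * m₁) u) Z →
      ∀ r : Mw17Pt T, r (mw17Sec T (n * m₁) u) ≠ 0 →
      |(Z.map fun p => b (some p) r).sum + ((n * m₁ - Multiset.card Z : ℕ) : ℝ) * b none r
        + Hu m₁ u + (m₁ : ℝ) * Hφ r| ≤ C) :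
    ∃ h : Pic0 K F → ℝ,
      (∃ C : ℝ, ∀ x y : Pic0 K F, |h (x + y) + h (x - y) - 2 * (h x + h y)| ≤ C) ∧
      ∀ s : ℕ, ∃ C : ℝ, ∀ (A : Option (Mw17Pt T) →₀ ℤ) (W : Mw17Pt T →₀ ℤ), mw17paDeg A = 0 →
        mw17paDeg W = 0 → mw17paSize A ≤ s → mw17paSize W ≤ s → Mw17paOff A W →
        mw17prCl P (mw17paIota W) = mw17prCl P A → |mw17paB b A W - h (mw17prCl P A)| ≤ C :=
  mw17pa_main (mw17gp_hyp P R n hn b hsymm Hu Hφ hoff)

end Fermat.Agent.MW17
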